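import Fermat.Agent.Alg.IntegralForms
import Fermat.Prelude.Def_FormalHecke_Eigensystem
import Fermat.Prelude.Def_ModularForm_EisensteinChiNegThree

set_option autoImplicit false
set_option linter.style.haveILetI false

noncomputable section

namespace FLTAgent.Alg

open CongruenceSubgroup ModularFormClass EisensteinWeightOne

theorem bridgeProduct_mod_three (a : ℕ → ℤ) (n : ℕ) :
    (((bridgeProduct a).coeff n : ℤ) : ZMod 3) = (a n : ZMod 3) := by
  have h1 : PowerSeries.map (Int.castRingHom (ZMod 3)) (e1Chi3In ℤ) = 1 := by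
    ext m
    simp only [PowerSeries.coeff_map, e1Chi3In, e1Chi3, PowerSeries.coeff_mk, PowerSeries.coeff_one]
    rcases eq_or_ne m 0 with rfl | hm
    · simp
    · simp [hm, show (6 : ZMod 3) = 0 from by decide]
  have h := congrArg (PowerSeries.coeff n)
    (map_mul (PowerSeries.map (Int.castRingHom (ZMod 3))) (PowerSeries.mk a) (e1Chi3In ℤ))
  rw [h1, mul_one, PowerSeries.coeff_map, PowerSeries.coeff_map, PowerSeries.coeff_mk] at h
  exact h

theorem chiNegThree_mod_three (ℓ : ℕ) : ((chiNegThree ℓ : ℤ) : ZMod 3) = (ℓ : ZMod 3) := by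
  rw [← ZMod.natCast_mod ℓ 3]
  unfold chiNegThree
  have h := Nat.mod_lt ℓ (show 0 < 3 by norm_num)
  interval_cases h2 : ℓ % 3 <;> simp <;> decide

theorem exists_maximal_lift {T : Type*} [CommRing T] [Module.Finite ℤ T] [Module.IsTorsionFree ℤ T]
    {p : ℕ} [Fact p.Prime] (θ : T →+* ZMod p) :
    ∃ (χ : T →+* integralClosure ℤ ℂ) (𝔪' : Ideal (integralClosure ℤ ℂ)), 𝔪'.IsMaximal ∧
      (p : integralClosure ℤ ℂ) ∈ 𝔪' ∧ ∀ t, θ t = 0 → χ t ∈ 𝔪' := by
  classical
  haveI hθ : (RingHom.ker θ).IsMaximal :=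
    RingHom.ker_isMaximal_of_surjective θ fun c => ⟨(c.val : T), by rw [map_natCast, ZMod.natCast_zmod_val]⟩
  obtain ⟨q, hq, hqle⟩ := Ideal.exists_minimalPrimes_le (J := RingHom.ker θ) (I := (⊥ : Ideal T))
    bot_le
  haveI hqp : q.IsPrime := hq.1.1
  have hinjZ : ∀ n : ℤ, (n : T) ∈ q → n = 0 := by
    intro n hn
    by_contra hne
    refine Set.disjoint_left.1
      (Ideal.disjoint_nonZeroDivisors_of_mem_minimalPrimes (show q ∈ minimalPrimes T from hq)) hn ?_
    rw [SetLike.mem_coe, mem_nonZeroDivisors_iff_right]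
    intro x hx
    have h : n • x = n • (0 : T) := by
      rw [smul_zero, zsmul_eq_mul, mul_comm]; exact hx
    exact smul_right_injective T hne h
  haveI : CharZero (T ⧸ q) := charZero_of_inj_zero fun n hn => by
    have h1 : ((n : ℤ) : T) ∈ q := by
      rw [← Ideal.Quotient.eq_zero_iff_mem, map_intCast, Int.cast_natCast]; exact hn
    exact_mod_cast hinjZ n h1
  let F := FractionRing (T ⧸ q)
  haveI : CharZero F :=
    charZero_of_injective_algebraMap (IsFractionRing.injective (T ⧸ q) F)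
  haveI : Module.Finite ℤ (T ⧸ q) :=
    Module.Finite.of_surjective (Ideal.Quotient.mk q).toAddMonoidHom.toIntLinearMap
      Ideal.Quotient.mk_surjective
  haveI : Algebra.IsIntegral ℤ (T ⧸ q) := Algebra.IsIntegral.of_finite ℤ (T ⧸ q)
  have hint : ∀ x : T ⧸ q, IsIntegral ℚ (algebraMap (T ⧸ q) F x) := fun x =>
    IsIntegral.map_of_comp_eq (algebraMap ℤ ℚ) (algebraMap (T ⧸ q) F) (RingHom.ext_int _ _)
      (Algebra.IsIntegral.isIntegral (R := ℤ) x)
  haveI : Algebra.IsAlgebraic ℚ F := ⟨fun z => by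
    obtain ⟨a, b, -, rfl⟩ := IsFractionRing.div_surjective (T ⧸ q) z
    rw [div_eq_mul_inv]
    exact ((hint a).mul (hint b).inv).isAlgebraic⟩
  let emb : F →ₐ[ℚ] ℂ := IsAlgClosed.lift
  let χ0 : T →+* ℂ := emb.toRingHom.comp ((algebraMap (T ⧸ q) F).comp (Ideal.Quotient.mk q))
  have hχ0 : ∀ t, χ0 t ∈ integralClosure ℤ ℂ := fun t =>
    IsIntegral.map χ0.toIntAlgHom ((Algebra.IsIntegral.of_finite ℤ T).isIntegral t)
  let χ : T →+* integralClosure ℤ ℂ := RingHom.codRestrict χ0 (integralClosure ℤ ℂ) hχ0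
  have hker : RingHom.ker χ = q := by
    ext t
    rw [RingHom.mem_ker, ← Subtype.coe_inj]
    change χ0 t = 0 ↔ _
    simp only [χ0, RingHom.comp_apply]
    rw [map_eq_zero, map_eq_zero_iff _ (IsFractionRing.injective (T ⧸ q) F),
      Ideal.Quotient.eq_zero_iff_mem]
  letI : Algebra T (integralClosure ℤ ℂ) := χ.toAlgebra
  haveI : Algebra.IsIntegral T (integralClosure ℤ ℂ) := ⟨fun x =>
    (Algebra.IsIntegral.isIntegral (R := ℤ) x).tower_top⟩
  obtain ⟨𝔪', hmax, hcomap⟩ :=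
    Ideal.exists_ideal_over_maximal_of_isIntegral (S := integralClosure ℤ ℂ) (RingHom.ker θ)
      (by rw [RingHom.algebraMap_toAlgebra, hker]; exact hqle)
  have hmem : ∀ t, θ t = 0 → χ t ∈ 𝔪' := by
    intro t ht
    have h : t ∈ RingHom.ker θ := ht
    rw [← hcomap, Ideal.mem_comap, RingHom.algebraMap_toAlgebra] at h
    exact h
  refine ⟨χ, 𝔪', hmax, ?_, hmem⟩
  have := hmem (p : T) (by rw [map_natCast, ZMod.natCast_self])
  rwa [map_natCast] at this

theorem exists_eigenform_congruent {N : ℕ} [NeZero N] (h : CuspForm.HasIntegralBasis N)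
    {a : ℕ → ℤ}
    (heig : FormalHecke.IsEigensystem
      (fun ℓ => if ℓ ∣ N then 0 else ((chiNegThree ℓ : ℤ) : ℤ)) a)
    (hreal : CuspForm.IsLatticeRealized N a) :
    ∃ (f : CuspForm (Gamma0 N) 2) (_ : f.IsNormalizedEigenform)
      (𝔪' : Ideal (integralClosure ℤ ℂ)), 𝔪'.IsMaximal ∧
      ((3 : ℕ) : integralClosure ℤ ℂ) ∈ 𝔪' ∧
      ∀ (ℓ : ℕ) (_ : ℓ.Prime) (_ : ¬ ℓ ∣ N),
        ∃ c : integralClosure ℤ ℂ, (c : ℂ) = ModularFormClass.qCoeff f ℓ ∧
          c - (a ℓ : integralClosure ℤ ℂ) ∈ 𝔪' := by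
  classical
  obtain ⟨f₀, hf₀, af, haf, hcong⟩ := hreal
  obtain ⟨ha1, hrec⟩ := heig
  have hf₀L : f₀ ∈ intForms N := fun n => ⟨af n, (haf n).symm⟩
  choose cf hcf using fun (g : intForms N) (n : ℕ) => g.2 n
  let red : intForms N → ℕ → ZMod 3 := fun g n => (cf g n : ZMod 3)
  have red_eq : ∀ (g : intForms N) (n : ℕ) (m : ℤ), coeffSeq N g.1 n = (m : ℂ) →
      red g n = (m : ZMod 3) := by
    intro g n m hm
    rw [hcf g n, Int.cast_inj] at hm
    simp only [red, hm]
  let abar : ℕ → ZMod 3 := fun n => (a n : ZMod 3)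
  have hred₀ : ∀ n, red ⟨f₀, hf₀L⟩ n = abar n := by
    intro n
    rw [red_eq ⟨f₀, hf₀L⟩ n (af n) (haf n).symm]
    refine Eq.trans ?_ (bridgeProduct_mod_three a n)
    rw [ZMod.intCast_eq_intCast_iff_dvd_sub]
    exact dvd_sub_comm.1 (hcong n)
  let T := CuspForm.heckeAlgebra N 2 (∅ : Set ℕ)
  let act : T → intForms N → intForms N := fun t g => ⟨t.1 g.1, hecke_mem_intForms t g.2⟩
  let P : T → Prop := fun t => ∃ c : ZMod 3, ∀ (g : intForms N) (k : ZMod 3),
    (∀ n, red g n = k * abar n) → ∀ n, red (act t g) n = c * (k * abar n)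
  have hgenT : ∀ (ℓ : ℕ) (hℓ : ℓ.Prime) (hℓN : ¬ ℓ ∣ N) (g : intForms N) (k : ZMod 3),
      (∀ n, red g n = k * abar n) → ∀ n,
      red (act (CuspForm.heckeAlgebra.T hℓ hℓN (Set.notMem_empty _)) g) n =
        abar ℓ * (k * abar n) := by
    intro ℓ hℓ hℓN g k hg n
    have hc : coeffSeq N (act (CuspForm.heckeAlgebra.T hℓ hℓN (Set.notMem_empty _)) g).1 n =
        ((cf g (n * ℓ) + if ℓ ∣ n then (ℓ : ℤ) * cf g (n / ℓ) else 0 : ℤ) : ℂ) := by
      change coeffSeq N (CuspForm.heckeTLin 2 hℓ hℓN g.1) n = _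
      rw [coeff_heckeT hℓ hℓN, hcf, hcf]
      split_ifs <;> simp
    rw [red_eq _ n _ hc]
    have hr := congrArg (fun z : ℤ => (z : ZMod 3)) (hrec ℓ hℓ n)
    simp only [if_neg hℓN] at hr
    push_cast [chiNegThree_mod_three] at hr
    push_cast
    have h1 : (cf g (n * ℓ) : ZMod 3) = k * abar (n * ℓ) := hg _
    have h2 : (cf g (n / ℓ) : ZMod 3) = k * abar (n / ℓ) := hg _
    rw [mul_comm ℓ n] at hr
    by_cases hd : ℓ ∣ n
    · simp only [hd, if_true] at hr ⊢
      push_cast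
      rw [h1, h2]
      simp only [abar]
      linear_combination k * hr
    · simp only [hd, if_false, mul_zero, add_zero, Int.cast_zero] at hr ⊢
      rw [h1]
      simp only [abar]
      linear_combination k * hr
  have hgenU : ∀ (q : ℕ) (hq : q.Prime) (hqN : q ∣ N) (g : intForms N) (k : ZMod 3),
      (∀ n, red g n = k * abar n) → ∀ n,
      red (act (CuspForm.heckeAlgebra.U hq hqN (Set.notMem_empty _)) g) n =
        abar q * (k * abar n) := by
    intro q hq hqN g k hg n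
    have hc : coeffSeq N (act (CuspForm.heckeAlgebra.U hq hqN (Set.notMem_empty _)) g).1 n =
        ((cf g (n * q) : ℤ) : ℂ) := by
      change coeffSeq N (CuspForm.heckeULin 2 hqN g.1) n = _
      rw [coeff_heckeU hq hqN, hcf]
    rw [red_eq _ n _ hc]
    have hr := congrArg (fun z : ℤ => (z : ZMod 3)) (hrec q hq n)
    simp only [if_pos hqN, zero_mul, add_zero] at hr
    push_cast at hr
    have h1 : (cf g (n * q) : ZMod 3) = k * abar (n * q) := hg _
    rw [mul_comm q n] at hr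
    rw [h1]
    simp only [abar]
    linear_combination k * hr
  have hint : ∀ m : ℤ, ∀ (g : intForms N) (k : ZMod 3), (∀ n, red g n = k * abar n) →
      ∀ n, red (act (algebraMap ℤ T m) g) n = (m : ZMod 3) * (k * abar n) := by
    intro m g k hg n
    have hc : coeffSeq N (act (algebraMap ℤ T m) g).1 n = ((m * cf g n : ℤ) : ℂ) := by
      have h0 : (act (algebraMap ℤ T m) g).1 = m • g.1 := by
        change (algebraMap ℤ (Module.End ℂ (CuspForm (Gamma0 N) 2)) m) g.1 = _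
        rw [Module.algebraMap_end_apply]
      rw [h0, map_zsmul, Pi.smul_apply, hcf, zsmul_eq_mul]
      push_cast; ring
    rw [red_eq _ n _ hc]
    push_cast
    rw [show (cf g n : ZMod 3) = k * abar n from hg n]
  have hP : ∀ t : T, P t := by
    rintro ⟨t, ht⟩
    refine Algebra.adjoin_induction (p := fun t ht => P ⟨t, ht⟩) ?_ ?_ ?_ ?_ ht
    · intro t ht
      rcases ht with ⟨ℓ, hℓ, hℓN, hℓS, rfl⟩ | ⟨q, hqN, hq, hqS, rfl⟩
      · exact ⟨_, hgenT ℓ hℓ hℓN⟩
      · exact ⟨_, hgenU q hq hqN⟩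
    · intro m
      exact ⟨_, hint m⟩
    · rintro x y hx hy ⟨c, hc⟩ ⟨d, hd⟩
      refine ⟨c + d, fun g k hg n => ?_⟩
      have he : coeffSeq N (act (⟨x, hx⟩ + ⟨y, hy⟩) g).1 n =
          ((cf (act ⟨x, hx⟩ g) n + cf (act ⟨y, hy⟩ g) n : ℤ) : ℂ) := by
        rw [Int.cast_add, ← hcf, ← hcf]
        change coeffSeq N (x g.1 + y g.1) n = _
        rw [map_add]; rfl
      change red (act (⟨x, hx⟩ + ⟨y, hy⟩) g) n = _
      rw [red_eq _ n _ he, Int.cast_add, add_mul]
      exact congrArg₂ (· + ·) (hc g k hg n) (hd g k hg n)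
    · rintro x y hx hy ⟨c, hc⟩ ⟨d, hd⟩
      refine ⟨c * d, fun g k hg n => ?_⟩
      change red (act ⟨x, hx⟩ (act ⟨y, hy⟩ g)) n = _
      rw [hc (act ⟨y, hy⟩ g) (d * k) (fun n => by rw [hd g k hg n, mul_assoc]) n]
      ring
  choose cP hcP using hP
  have hcP1 : ∀ t : T, cP t = red (act t ⟨f₀, hf₀L⟩) 1 := by
    intro t
    rw [hcP t ⟨f₀, hf₀L⟩ 1 (fun n => by rw [one_mul, hred₀]) 1]
    simp [abar, ha1]
  have huniq : ∀ (t : T) (c : ZMod 3), (∀ (g : intForms N) (k : ZMod 3),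
      (∀ n, red g n = k * abar n) → ∀ n, red (act t g) n = c * (k * abar n)) → cP t = c := by
    intro t c hc
    rw [hcP1, hc ⟨f₀, hf₀L⟩ 1 (fun n => by rw [one_mul, hred₀]) 1]
    simp [abar, ha1]
  let θ : T →+* ZMod 3 :=
    { toFun := cP
      map_one' := huniq _ _ (fun g k hg n => by
        rw [one_mul]; exact hg n)
      map_mul' := fun x y => huniq _ _ (fun g k hg n => by
        change red (act x (act y g)) n = _
        rw [hcP x (act y g) (cP y * k) (fun n => by rw [hcP y g k hg n, mul_assoc]) n]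
        ring)
      map_zero' := huniq _ _ (fun g k hg n => by
        rw [zero_mul, red_eq _ n 0 (by
          change coeffSeq N (0 : CuspForm (Gamma0 N) 2) n = _
          rw [map_zero]; simp), Int.cast_zero])
      map_add' := fun x y => huniq _ _ (fun g k hg n => by
        have he : coeffSeq N (act (x + y) g).1 n = ((cf (act x g) n + cf (act y g) n : ℤ) : ℂ) := by
          rw [Int.cast_add, ← hcf, ← hcf]
          change coeffSeq N (x.1 g.1 + y.1 g.1) n = _
          rw [map_add]; rfl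
        rw [red_eq _ n _ he, Int.cast_add, add_mul]
        exact congrArg₂ (· + ·) (hcP x g k hg n) (hcP y g k hg n)) }
  haveI : Fact (Nat.Prime 3) := ⟨Nat.prime_three⟩
  haveI : Module.Finite ℤ T := heckeAlgebra_finite h
  obtain ⟨χ, 𝔪', hmax, h3, hker⟩ := exists_maximal_lift θ
  obtain ⟨v, hv0, hv⟩ := exists_eigenvector h ((integralClosure ℤ ℂ).val.toRingHom.comp χ)
  let lam : T → ℂ := fun t => (χ t : ℂ)
  set c : ℕ → ℂ := coeffSeq N v with hcdef
  have hT : ∀ (ℓ : ℕ) (hℓ : ℓ.Prime) (hℓN : ¬ ℓ ∣ N) (n : ℕ),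
      c (n * ℓ) + (if ℓ ∣ n then (ℓ : ℂ) * c (n / ℓ) else 0) =
        lam (CuspForm.heckeAlgebra.T hℓ hℓN (Set.notMem_empty _)) * c n := by
    intro ℓ hℓ hℓN n
    rw [hcdef, ← coeff_heckeT hℓ hℓN]
    have := congrArg (fun w => coeffSeq N w n)
      (hv (CuspForm.heckeAlgebra.T hℓ hℓN (Set.notMem_empty _)))
    simp only [map_smul, Pi.smul_apply, smul_eq_mul] at this
    exact this
  have hU : ∀ (q : ℕ) (hq : q.Prime) (hqN : q ∣ N) (n : ℕ),
      c (n * q) = lam (CuspForm.heckeAlgebra.U hq hqN (Set.notMem_empty _)) * c n := by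
    intro q hq hqN n
    rw [hcdef, ← coeff_heckeU hq hqN]
    have := congrArg (fun w => coeffSeq N w n)
      (hv (CuspForm.heckeAlgebra.U hq hqN (Set.notMem_empty _)))
    simp only [map_smul, Pi.smul_apply, smul_eq_mul] at this
    exact this
  obtain ⟨L, e, hrel, he0⟩ : ∃ L e : ℕ → ℂ, (∀ ℓ, ℓ.Prime → ∀ n,
      c (n * ℓ) + (if ℓ ∣ n then e ℓ * c (n / ℓ) else 0) = L ℓ * c n) ∧
      (∀ ℓ, e ℓ = if ℓ ∣ N then 0 else (ℓ : ℂ)) := by
    refine ⟨fun ℓ => if hℓ : ℓ.Prime then (if hℓN : ℓ ∣ N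
        then lam (CuspForm.heckeAlgebra.U hℓ hℓN (Set.notMem_empty _))
        else lam (CuspForm.heckeAlgebra.T hℓ hℓN (Set.notMem_empty _))) else 0,
      fun ℓ => if ℓ ∣ N then 0 else (ℓ : ℂ), ?_, fun _ => rfl⟩
    intro ℓ hℓ n
    by_cases hℓN : ℓ ∣ N
    · simp only [hℓ, hℓN, dite_true, if_true, zero_mul, ite_self, add_zero]
      exact hU ℓ hℓ hℓN n
    · simp only [hℓ, hℓN, dite_true, dite_false, if_false]
      exact hT ℓ hℓ hℓN n
  have hc0 : c 0 = 0 := coeffSeq_zero_coeff v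
  have hc1 : c 1 ≠ 0 := by
    intro h1
    apply hv0
    apply coeffSeq_injective
    funext n
    rw [map_zero, Pi.zero_apply]
    change c n = 0
    induction n using Nat.strong_induction_on with
    | _ n ih =>
      rcases lt_or_ge n 2 with hn | hn
      · interval_cases n
        · exact hc0
        · exact h1
      · obtain ⟨ℓ, hℓ, m, rfl⟩ : ∃ ℓ, ℓ.Prime ∧ ∃ m, n = m * ℓ := by
          obtain ⟨ℓ, hℓ, hd⟩ := Nat.exists_prime_and_dvd (show n ≠ 1 by omega)
          exact ⟨ℓ, hℓ, n / ℓ, (Nat.div_mul_cancel hd).symm⟩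
        have hm : m ≠ 0 := by rintro rfl; simp at hn
        have hlt : m < m * ℓ := lt_mul_of_one_lt_right (Nat.pos_of_ne_zero hm) hℓ.one_lt
        have hr := hrel ℓ hℓ m
        rw [ih m hlt, ih (m / ℓ) (lt_of_le_of_lt (Nat.div_le_self _ _) hlt)] at hr
        simpa using hr
  set d : ℕ → ℂ := fun n => (c 1)⁻¹ * c n with hddef
  have hd1 : d 1 = 1 := inv_mul_cancel₀ hc1
  have hdrel : ∀ ℓ, ℓ.Prime → ∀ n,
      d (n * ℓ) + (if ℓ ∣ n then e ℓ * d (n / ℓ) else 0) = L ℓ * d n := by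
    intro ℓ hℓ n
    have := hrel ℓ hℓ n
    simp only [hddef]
    split_ifs at this ⊢ <;> linear_combination (c 1)⁻¹ * this
  have hdp : ∀ ℓ, ℓ.Prime → d ℓ = L ℓ := by
    intro ℓ hℓ
    have := hdrel ℓ hℓ 1
    rwa [one_mul, if_neg (fun hd => hℓ.ne_one (Nat.dvd_one.1 hd)), add_zero, hd1, mul_one] at this
  have hmul : ∀ m n : ℕ, m.Coprime n → d (m * n) = d m * d n := by
    intro m
    induction m using Nat.strong_induction_on with
    | _ m ih =>
      intro n hco
      rcases lt_or_ge m 2 with hm | hm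
      · interval_cases m
        · rw [Nat.coprime_zero_left] at hco
          subst hco
          rw [mul_one, hd1, mul_one]
        · rw [one_mul, hd1, one_mul]
      · obtain ⟨ℓ, hℓ, m', rfl⟩ : ∃ ℓ, ℓ.Prime ∧ ∃ m', m = m' * ℓ := by
          obtain ⟨ℓ, hℓ, hd⟩ := Nat.exists_prime_and_dvd (show m ≠ 1 by omega)
          exact ⟨ℓ, hℓ, m / ℓ, (Nat.div_mul_cancel hd).symm⟩
        have hm' : m' ≠ 0 := by rintro rfl; simp at hm
        have hlt : m' < m' * ℓ := lt_mul_of_one_lt_right (Nat.pos_of_ne_zero hm') hℓ.one_lt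
        have hco' : m'.Coprime n := hco.coprime_dvd_left (dvd_mul_right _ _)
        have hℓn : ℓ.Coprime n := hco.coprime_dvd_left (dvd_mul_left _ _)
        have hr1 := hdrel ℓ hℓ (m' * n)
        have hr2 := hdrel ℓ hℓ m'
        rw [show m' * n * ℓ = m' * ℓ * n by ring, ih m' hlt n hco'] at hr1
        by_cases hd : ℓ ∣ m'
        · rw [if_pos (dvd_mul_of_dvd_left hd n),
            show m' * n / ℓ = m' / ℓ * n from Nat.mul_div_right_comm hd n,
            ih (m' / ℓ) (lt_of_le_of_lt (Nat.div_le_self _ _) hlt) n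
              (hco'.coprime_dvd_left (Nat.div_dvd_of_dvd hd))] at hr1
          rw [if_pos hd] at hr2
          linear_combination hr1 - (d n) * hr2
        · rw [if_neg (fun hx => (hℓ.dvd_mul.1 hx).elim hd
            (fun hh => hℓ.ne_one (Nat.eq_one_of_dvd_coprimes hℓn dvd_rfl hh)))] at hr1
          rw [if_neg hd] at hr2
          linear_combination hr1 - (d n) * hr2
  have hpow : ∀ ℓ r, ℓ.Prime →
      d (ℓ ^ (r + 2)) = d ℓ * d (ℓ ^ (r + 1)) - e ℓ * d (ℓ ^ r) := by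
    intro ℓ r hℓ
    have hr := hdrel ℓ hℓ (ℓ ^ (r + 1))
    rw [← pow_succ, if_pos (dvd_pow_self ℓ (Nat.succ_ne_zero r)), ← hdp ℓ hℓ,
      show ℓ ^ (r + 1) / ℓ = ℓ ^ r by rw [pow_succ, Nat.mul_div_cancel _ hℓ.pos]] at hr
    linear_combination hr
  have hco : ∀ n, qCoeff (⇑((c 1)⁻¹ • v)) n = d n := fun n => qCoeff_form_smul _ v n
  refine ⟨(c 1)⁻¹ • v, ⟨?_, ?_, ?_, ?_⟩, 𝔪', hmax, h3, ?_⟩
  · rw [hco, hd1]
  · intro m n hmn
    rw [hco, hco, hco, hmul m n hmn]
  · intro p r hp hpN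
    rw [hco, hco, hco, hco, hpow p r hp, he0, if_neg hpN]
  · intro p r hp hpN
    rw [hco, hco, hco, hpow p r hp, he0, if_pos hpN, zero_mul, sub_zero]
  · intro ℓ hℓ hℓN
    refine ⟨χ (CuspForm.heckeAlgebra.T hℓ hℓN (Set.notMem_empty _)), ?_, ?_⟩
    · rw [hco]
      have hr := hT ℓ hℓ hℓN 1
      rw [one_mul, if_neg (fun hd => hℓ.ne_one (Nat.dvd_one.1 hd)), add_zero] at hr
      simp only [hddef]
      rw [hr, mul_left_comm, inv_mul_cancel₀ hc1, mul_one]
    · have hz : θ (CuspForm.heckeAlgebra.T hℓ hℓN (Set.notMem_empty _) - (a ℓ : T)) = 0 := by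
        rw [map_sub, map_intCast, sub_eq_zero]
        exact huniq _ _ (hgenT ℓ hℓ hℓN)
      have := hker _ hz
      rwa [map_sub, map_intCast] at this

end FLTAgent.Alg

end
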