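import Fermat.Prelude.Def_EllipticCurve_FrobeniusTrace
import Mathlib

set_option autoImplicit false
set_option linter.style.haveILetI false

noncomputable section

namespace FLTAgent.Alg

open scoped Pointwise

abbrev Qb : Type := AlgebraicClosure ℚ

theorem qb_isAlgebraic : Algebra.IsAlgebraic ℚ (AlgebraicClosure ℚ) :=
  AlgebraicClosure.isAlgebraic ℚ

theorem qb_isGalois : IsGalois ℚ (AlgebraicClosure ℚ) := by
  haveI := qb_isAlgebraic
  haveI : IsAlgClosure ℚ (AlgebraicClosure ℚ) := ⟨inferInstance, inferInstance⟩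
  haveI : Normal ℚ (AlgebraicClosure ℚ) := IsAlgClosure.normal ℚ _
  exact ⟨⟩

theorem int_isInvariant :
    Algebra.IsInvariant ℤ (integralClosure ℤ (AlgebraicClosure ℚ))
      (AlgebraicClosure ℚ ≃ₐ[ℚ] AlgebraicClosure ℚ) := by
  haveI := qb_isGalois
  refine ⟨fun b hb => ?_⟩
  have hmem : (b : AlgebraicClosure ℚ) ∈
      IntermediateField.fixedField (⊤ : Subgroup (AlgebraicClosure ℚ ≃ₐ[ℚ] AlgebraicClosure ℚ)) :=
    fun g => congrArg Subtype.val (hb g.1)
  rw [InfiniteGalois.fixedField_bot] at hmem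
  obtain ⟨q, hq⟩ := IntermediateField.mem_bot.1 hmem
  have hint : IsIntegral ℤ q := by
    have hb : IsIntegral ℤ (b : AlgebraicClosure ℚ) := b.2
    rw [← hq] at hb
    exact (isIntegral_algebraMap_iff (algebraMap ℚ (AlgebraicClosure ℚ)).injective).1 hb
  obtain ⟨n, hn⟩ := IsIntegrallyClosed.isIntegral_iff.1 hint
  refine ⟨n, Subtype.ext ?_⟩
  change algebraMap ℤ (AlgebraicClosure ℚ) n = _
  rw [← hq, ← hn, ← IsScalarTower.algebraMap_apply]

theorem fraction_or_inv (Q : Ideal (integralClosure ℤ (AlgebraicClosure ℚ))) [Q.IsPrime]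
    {ℓ : ℕ} (hℓ : ℓ ≠ 0) (hQ : (ℓ : integralClosure ℤ (AlgebraicClosure ℚ)) ∈ Q)
    (x : AlgebraicClosure ℚ) :
    (∃ a b : integralClosure ℤ (AlgebraicClosure ℚ), b ∉ Q ∧
        x * b = (a : AlgebraicClosure ℚ)) ∨
      ∃ a b : integralClosure ℤ (AlgebraicClosure ℚ), b ∉ Q ∧
        x⁻¹ * b = (a : AlgebraicClosure ℚ) := by
  haveI := qb_isAlgebraic
  let K := IntermediateField.adjoin ℚ ({x} : Set (AlgebraicClosure ℚ))
  haveI : FiniteDimensional ℚ K :=
    IntermediateField.adjoin.finiteDimensional (Algebra.IsIntegral.isIntegral x)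
  haveI : NumberField K := { }
  let C := NumberField.RingOfIntegers K
  let incl : C →+* integralClosure ℤ (AlgebraicClosure ℚ) :=
    { toFun := fun c => ⟨((c : K) : AlgebraicClosure ℚ),
        map_isIntegral_int (algebraMap K (AlgebraicClosure ℚ))
          (NumberField.RingOfIntegers.isIntegral_coe c)⟩
      map_one' := Subtype.ext rfl
      map_mul' := fun _ _ => Subtype.ext rfl
      map_zero' := Subtype.ext rfl
      map_add' := fun _ _ => Subtype.ext rfl }
  let P : Ideal C := Q.comap incl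
  haveI : P.IsPrime := Ideal.IsPrime.comap incl
  have hP : P ≠ ⊥ := by
    intro h
    have hmem : (ℓ : C) ∈ P := by
      change incl (ℓ : C) ∈ Q
      rwa [map_natCast]
    rw [h, Ideal.mem_bot] at hmem
    exact hℓ (Nat.cast_eq_zero.1 hmem)
  haveI := IsLocalization.AtPrime.isDiscreteValuationRing_of_dedekind_domain C hP
    (Localization.AtPrime P)
  obtain ⟨⟨a, b, hb⟩, hab⟩ : ∃ ab : Σ' (a b : C), b ≠ 0,
      (ab.1 : K) / (ab.2.1 : K) = ⟨x, IntermediateField.mem_adjoin_simple_self ℚ x⟩ := by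
    obtain ⟨a, b, hb, hab⟩ := IsFractionRing.div_surjective C
      (⟨x, IntermediateField.mem_adjoin_simple_self ℚ x⟩ : K)
    exact ⟨⟨a, b, nonZeroDivisors.ne_zero hb⟩, hab⟩
  have hx : x = ((a : K) : AlgebraicClosure ℚ) / ((b : K) : AlgebraicClosure ℚ) := by
    have h := congrArg (fun t : K => (t : AlgebraicClosure ℚ)) hab
    simpa using h.symm
  have hb' : ((b : K) : AlgebraicClosure ℚ) ≠ 0 := by
    intro h
    exact hb (NumberField.RingOfIntegers.ext (Subtype.ext (by simpa using h)))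
  have key : ∀ a b : C,
      algebraMap C (Localization.AtPrime P) a ∣ algebraMap C (Localization.AtPrime P) b →
      ∃ c s : C, s ∉ P ∧ b * s = a * c := by
    intro a b ⟨q, hq⟩
    obtain ⟨c, s, rfl⟩ := IsLocalization.exists_mk'_eq P.primeCompl q
    refine ⟨c, s, s.2, ?_⟩
    apply IsLocalization.injective (Localization.AtPrime P) P.primeCompl_le_nonZeroDivisors
    rw [map_mul, map_mul, hq, mul_assoc, IsLocalization.mk'_spec]
  rcases ValuationRing.dvd_total (algebraMap C (Localization.AtPrime P) b)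
      (algebraMap C (Localization.AtPrime P) a) with h | h
  · obtain ⟨c, s, hs, hcs⟩ := key b a h
    refine Or.inl ⟨incl c, incl s, hs, ?_⟩
    have h' : ((a : K) : AlgebraicClosure ℚ) * ((s : K) : AlgebraicClosure ℚ) =
        ((b : K) : AlgebraicClosure ℚ) * ((c : K) : AlgebraicClosure ℚ) :=
      congrArg (fun t : C => ((t : K) : AlgebraicClosure ℚ)) hcs
    change x * ((s : K) : AlgebraicClosure ℚ) = ((c : K) : AlgebraicClosure ℚ)
    rw [hx, div_mul_eq_mul_div, h', mul_div_cancel_left₀ _ hb']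
  · obtain ⟨c, s, hs, hcs⟩ := key a b h
    refine Or.inr ⟨incl c, incl s, hs, ?_⟩
    have h' : ((b : K) : AlgebraicClosure ℚ) * ((s : K) : AlgebraicClosure ℚ) =
        ((a : K) : AlgebraicClosure ℚ) * ((c : K) : AlgebraicClosure ℚ) :=
      congrArg (fun t : C => ((t : K) : AlgebraicClosure ℚ)) hcs
    change x⁻¹ * ((s : K) : AlgebraicClosure ℚ) = ((c : K) : AlgebraicClosure ℚ)
    by_cases ha : ((a : K) : AlgebraicClosure ℚ) = 0
    · rw [ha, zero_mul, mul_eq_zero] at h'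
      exfalso
      rcases h' with h' | h'
      · exact hb' h'
      · apply hs
        have : s = 0 := NumberField.RingOfIntegers.ext (Subtype.ext (by simpa using h'))
        rw [this]
        exact P.zero_mem
    · rw [hx, inv_div, div_mul_eq_mul_div, h', mul_div_cancel_left₀ _ ha]

/-- The valuation ring of `ℚ̄` attached to a prime of the algebraic integers above `ℓ`. -/
def placeOfPrime (Q : Ideal (integralClosure ℤ (AlgebraicClosure ℚ))) [hQp : Q.IsPrime]
    {ℓ : ℕ} (hℓ : ℓ ≠ 0) (hQ : (ℓ : integralClosure ℤ (AlgebraicClosure ℚ)) ∈ Q) :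
    ValuationSubring (AlgebraicClosure ℚ) where
  carrier := {x | ∃ a b : integralClosure ℤ (AlgebraicClosure ℚ), b ∉ Q ∧
    x * b = (a : AlgebraicClosure ℚ)}
  mul_mem' := by
    rintro x y ⟨a, b, hb, hx⟩ ⟨c, d, hd, hy⟩
    refine ⟨a * c, b * d, fun h => (hQp.mem_or_mem h).elim hb hd, ?_⟩
    push_cast
    linear_combination (y * (d : AlgebraicClosure ℚ)) * hx + (a : AlgebraicClosure ℚ) * hy
  one_mem' := ⟨1, 1, hQp.one_notMem, by simp⟩
  add_mem' := by
    rintro x y ⟨a, b, hb, hx⟩ ⟨c, d, hd, hy⟩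
    refine ⟨a * d + c * b, b * d, fun h => (hQp.mem_or_mem h).elim hb hd, ?_⟩
    push_cast
    linear_combination (d : AlgebraicClosure ℚ) * hx + (b : AlgebraicClosure ℚ) * hy
  zero_mem' := ⟨0, 1, hQp.one_notMem, by simp⟩
  neg_mem' := by
    rintro x ⟨a, b, hb, hx⟩
    exact ⟨-a, b, hb, by simp [neg_mul, hx]⟩
  mem_or_inv_mem' := fraction_or_inv Q hℓ hQ

/-- Existence of Frobenius elements at every prime. -/
theorem exists_place_frobenius (ℓ : ℕ) (hℓ : ℓ.Prime) :
    ∃ (A : ValuationSubring (AlgebraicClosure ℚ))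
      (σ : AlgebraicClosure ℚ ≃ₐ[ℚ] AlgebraicClosure ℚ),
      A.LiesOverPrime ℓ ∧ A.IsFrobeniusAt σ ℓ := by
  haveI := qb_isAlgebraic
  haveI := qb_isGalois
  haveI := int_isInvariant
  haveI : Fact ℓ.Prime := ⟨hℓ⟩
  let B := integralClosure ℤ (AlgebraicClosure ℚ)
  have hne : Ideal.span {(ℓ : B)} ≠ ⊤ := by
    rw [Ne, Ideal.span_singleton_eq_top]
    intro hu
    obtain ⟨u, hu⟩ := hu.exists_right_inv
    have hu' : (ℓ : AlgebraicClosure ℚ) * (u : AlgebraicClosure ℚ) = 1 := by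
      simpa using congrArg (fun t : B => (t : AlgebraicClosure ℚ)) hu
    have hne0 : (ℓ : AlgebraicClosure ℚ) ≠ 0 := Nat.cast_ne_zero.2 hℓ.ne_zero
    have hu'' : (u : AlgebraicClosure ℚ) = algebraMap ℚ (AlgebraicClosure ℚ) (ℓ : ℚ)⁻¹ := by
      rw [map_inv₀, map_natCast]
      exact eq_inv_of_mul_eq_one_right hu'
    have hint : IsIntegral ℤ ((ℓ : ℚ)⁻¹) := by
      have := u.2
      rw [mem_integralClosure_iff, hu''] at this
      exact (isIntegral_algebraMap_iff (algebraMap ℚ (AlgebraicClosure ℚ)).injective).1 this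
    obtain ⟨n, hn⟩ := IsIntegrallyClosed.isIntegral_iff.1 hint
    have : (n * ℓ : ℤ) = 1 := by
      have h : (n : ℚ) * ℓ = 1 := by
        rw [show (n : ℚ) = (ℓ : ℚ)⁻¹ from by simpa using hn]
        exact inv_mul_cancel₀ (Nat.cast_ne_zero.2 hℓ.ne_zero)
      exact_mod_cast h
    have h2 := Int.eq_one_of_mul_eq_one_left (by positivity) this
    exact hℓ.ne_one (by exact_mod_cast h2)
  obtain ⟨Q, hQmax, hQle⟩ := Ideal.exists_le_maximal _ hne
  haveI := hQmax
  have hQl : (ℓ : B) ∈ Q := hQle (Ideal.mem_span_singleton_self _)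
  let A := placeOfPrime Q hℓ.ne_zero hQl
  let P : Ideal ℤ := Ideal.span {(ℓ : ℤ)}
  haveI hPmax : P.IsMaximal :=
    PrincipalIdealRing.isMaximal_of_irreducible (Nat.prime_iff_prime_int.1 hℓ).irreducible
  haveI : Q.LiesOver P := ⟨hPmax.eq_of_le (Ideal.IsPrime.under ℤ Q).ne_top
    (by
      rw [Ideal.span_le, Set.singleton_subset_iff, SetLike.mem_coe, Ideal.under_def,
        Ideal.mem_comap, map_natCast]
      exact hQl)⟩
  letI : Field (B ⧸ Q) := Ideal.Quotient.field Q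
  haveI : CharP (B ⧸ Q) ℓ := (CharP.charP_iff_prime_eq_zero hℓ).2 (by
    rw [← map_natCast (Ideal.Quotient.mk Q), Ideal.Quotient.eq_zero_iff_mem]
    exact hQl)
  haveI : PerfectRing (B ⧸ Q) ℓ := PerfectRing.ofSurjective _ ℓ fun y => by
    obtain ⟨b, rfl⟩ := Ideal.Quotient.mk_surjective y
    obtain ⟨z, hz⟩ := IsAlgClosed.exists_pow_nat_eq (b : AlgebraicClosure ℚ) hℓ.pos
    have hzi : IsIntegral ℤ z := IsIntegral.of_pow hℓ.pos (hz.symm ▸ b.2)
    refine ⟨Ideal.Quotient.mk Q ⟨z, hzi⟩, ?_⟩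
    rw [frobenius_def, ← map_pow]
    exact congrArg _ (Subtype.ext hz)
  let f : (B ⧸ Q) ≃ₐ[ℤ ⧸ P] (B ⧸ Q) :=
    { frobeniusEquiv (B ⧸ Q) ℓ with
      commutes' := fun r => by
        obtain ⟨n, rfl⟩ := Ideal.Quotient.mk_surjective r
        change frobenius (B ⧸ Q) ℓ (algebraMap (ℤ ⧸ P) (B ⧸ Q) ((Ideal.Quotient.mk P) n)) = _
        rw [show (Ideal.Quotient.mk P) n = ((n : ℤ) : ℤ ⧸ P) from (eq_intCast _ _), map_intCast,
          map_intCast] }
  letI : TopologicalSpace B := ⊥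
  haveI : DiscreteTopology B := ⟨rfl⟩
  haveI : ContinuousSMul (AlgebraicClosure ℚ ≃ₐ[ℚ] AlgebraicClosure ℚ) B :=
    continuousSMul_iff_stabilizer_isOpen.2 fun b => by
      haveI : FiniteDimensional ℚ
          (IntermediateField.adjoin ℚ ({(b : AlgebraicClosure ℚ)} : Set (AlgebraicClosure ℚ))) :=
        IntermediateField.adjoin.finiteDimensional (Algebra.IsIntegral.isIntegral _)
      have h := IntermediateField.fixingSubgroup_isOpen
        (IntermediateField.adjoin ℚ ({(b : AlgebraicClosure ℚ)} : Set (AlgebraicClosure ℚ)))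
      refine Subgroup.isOpen_mono ?_ h
      intro g hg
      exact Subtype.ext (hg ⟨(b : AlgebraicClosure ℚ), IntermediateField.mem_adjoin_simple_self ℚ _⟩)
  obtain ⟨σ, hσ⟩ := Ideal.Quotient.stabilizerHom_surjective_of_profinite
    (G := AlgebraicClosure ℚ ≃ₐ[ℚ] AlgebraicClosure ℚ) P Q f
  have hfrob : ∀ b : B, (σ : AlgebraicClosure ℚ ≃ₐ[ℚ] AlgebraicClosure ℚ) • b - b ^ ℓ ∈ Q := by
    intro b
    have h := congrArg (fun g : (B ⧸ Q) ≃ₐ[ℤ ⧸ P] (B ⧸ Q) => g (Ideal.Quotient.mk Q b)) hσ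
    rw [← Ideal.Quotient.eq, map_pow]
    exact h
  have hστ : ∀ (τ : AlgebraicClosure ℚ ≃ₐ[ℚ] AlgebraicClosure ℚ), τ • Q = Q →
      ∀ x : AlgebraicClosure ℚ, x ∈ A → τ x ∈ A := by
    rintro τ hτ x ⟨a, b, hb, hx⟩
    refine ⟨τ • a, τ • b, ?_, ?_⟩
    · intro h
      rw [← hτ, Ideal.smul_mem_pointwise_smul_iff] at h
      exact hb h
    · change τ x * τ (b : AlgebraicClosure ℚ) = τ (a : AlgebraicClosure ℚ)
      rw [← map_mul, hx]
  have hdec : (σ : AlgebraicClosure ℚ ≃ₐ[ℚ] AlgebraicClosure ℚ) ∈ A.decompositionSubgroup ℚ := by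
    rw [MulAction.mem_stabilizer_iff]
    ext x
    constructor
    · intro hx
      obtain ⟨y, hy, rfl⟩ := hx
      exact hστ _ σ.2 y hy
    · intro hx
      refine ⟨(σ : AlgebraicClosure ℚ ≃ₐ[ℚ] AlgebraicClosure ℚ)⁻¹ x,
        hστ _ (inv_mem σ.2) x hx, ?_⟩
      exact AlgEquiv.apply_symm_apply _ _
  have hBA : ∀ b : B, (b : AlgebraicClosure ℚ) ∈ A :=
    fun b => ⟨b, 1, (hQmax.isPrime).one_notMem, by simp⟩
  let ι : B →+* A :=
    { toFun := fun b => ⟨(b : AlgebraicClosure ℚ), hBA b⟩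
      map_one' := Subtype.ext rfl
      map_mul' := fun _ _ => Subtype.ext rfl
      map_zero' := Subtype.ext rfl
      map_add' := fun _ _ => Subtype.ext rfl }
  have hιQ : ∀ b ∈ Q, IsLocalRing.residue A (ι b) = 0 := by
    intro b hb
    rw [IsLocalRing.residue_eq_zero_iff, IsLocalRing.mem_maximalIdeal, mem_nonunits_iff]
    intro hu
    obtain ⟨⟨y, hy⟩, hy1⟩ := hu.exists_right_inv
    obtain ⟨a, c, hc, hca⟩ := hy
    have h : (b : AlgebraicClosure ℚ) * y = 1 := congrArg Subtype.val hy1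
    apply hc
    have hbc : c = b * a := Subtype.ext (by
      push_cast
      rw [← hca, ← mul_assoc, h, one_mul])
    rw [hbc]
    exact Ideal.mul_mem_right _ _ hb
  refine ⟨A, σ, ?_, hdec, ?_⟩
  · change (ℓ : AlgebraicClosure ℚ) ∈ A.nonunits
    rw [ValuationSubring.mem_nonunits_iff_exists_mem_maximalIdeal]
    refine ⟨(ι (ℓ : B)).2, ?_⟩
    · have := hιQ _ hQl
      rw [IsLocalRing.residue_eq_zero_iff] at this
      exact this
  · intro r
    obtain ⟨⟨x, a, b, hb, hx⟩, rfl⟩ := IsLocalRing.residue_surjective r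
    obtain ⟨c, hc⟩ : ∃ c : B, b * c - 1 ∈ Q := by
      obtain ⟨c, hc⟩ := Ideal.Quotient.mk_surjective (Ideal.Quotient.mk Q b)⁻¹
      refine ⟨c, ?_⟩
      rw [← Ideal.Quotient.eq, map_mul, hc, map_one, mul_inv_cancel₀]
      rwa [Ne, Ideal.Quotient.eq_zero_iff_mem]
    let g : B →+* IsLocalRing.ResidueField A := (IsLocalRing.residue A).comp ι
    have hgQ : ∀ u v : B, u - v ∈ Q → g u = g v := fun u v h => by
      rw [← sub_eq_zero, ← map_sub]; exact hιQ _ h
    have hxg : IsLocalRing.residue A ⟨x, ⟨a, b, hb, hx⟩⟩ = g (a * c) := by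
      have h1 : g b * g c = 1 := by rw [← map_mul, hgQ _ _ hc, map_one]
      have h2 : IsLocalRing.residue A ⟨x, ⟨a, b, hb, hx⟩⟩ * g b = g a := by
        change IsLocalRing.residue A _ * IsLocalRing.residue A _ = IsLocalRing.residue A _
        rw [← map_mul]
        exact congrArg _ (Subtype.ext hx)
      calc IsLocalRing.residue A ⟨x, ⟨a, b, hb, hx⟩⟩
          = IsLocalRing.residue A ⟨x, ⟨a, b, hb, hx⟩⟩ * (g b * g c) := by rw [h1, mul_one]
        _ = g (a * c) := by rw [← mul_assoc, h2, map_mul]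
    rw [hxg, ← map_pow]
    change IsLocalRing.residue A
      ((⟨σ, hdec⟩ : A.decompositionSubgroup ℚ) • ι (a * c)) = _
    rw [← hgQ _ _ (hfrob (a * c))]
    rfl

end FLTAgent.Alg
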