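import Fermat.Prelude.Def_CuspForm_HeckeAlgebra
import Fermat.Prelude.Def_CuspForm_IntegralStructure
import Fermat.Prelude.Def_CuspForm_IntegralLattice
import Fermat.Prelude.Thm_CuspForm_intLattice_fg
import Fermat.Prelude.Thm_CuspForm_mem_intLattice_of_mem_heckeAlgebra
import Fermat.Prelude.Thm_ModularFormClass_qCoeff_heckeT
import Fermat.Prelude.Thm_ModularFormClass_qCoeff_heckeU
import Fermat.Prelude.Thm_CongruenceSubgroup_one_mem_strictPeriods_Gamma0
import Mathlib

set_option autoImplicit false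
set_option linter.style.haveILetI false

noncomputable section

namespace FLTAgent.Alg

open CongruenceSubgroup ModularFormClass UpperHalfPlane
open scoped TensorProduct

variable {N : ℕ}

theorem qCoeff_form_add (f g : CuspForm (Gamma0 N) 2) (n : ℕ) :
    qCoeff (⇑(f + g)) n = qCoeff (⇑f) n + qCoeff (⇑g) n := by
  unfold qCoeff
  rw [FunLike.coe_add, ModularForm.qExpansion_add one_pos
    (CongruenceSubgroup.one_mem_strictPeriods_Gamma0 N) f g, map_add]

theorem qCoeff_form_smul (c : ℂ) (f : CuspForm (Gamma0 N) 2) (n : ℕ) :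
    qCoeff (⇑(c • f)) n = c * qCoeff (⇑f) n := by
  unfold qCoeff
  rw [FunLike.coe_smul, ModularForm.qExpansion_smul one_pos
    (CongruenceSubgroup.one_mem_strictPeriods_Gamma0 N) c f, map_smul, smul_eq_mul]

/-- The coefficient sequence as a linear map. -/
def coeffSeq (N : ℕ) : CuspForm (Gamma0 N) 2 →ₗ[ℂ] (ℕ → ℂ) where
  toFun f n := qCoeff (⇑f) n
  map_add' f g := funext fun n => qCoeff_form_add f g n
  map_smul' c f := funext fun n => qCoeff_form_smul c f n

theorem coeffSeq_zero_coeff (f : CuspForm (Gamma0 N) 2) : coeffSeq N f 0 = 0 :=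
  CuspFormClass.qExpansion_coeff_zero f one_pos (CongruenceSubgroup.one_mem_strictPeriods_Gamma0 N)

theorem coeffSeq_injective : Function.Injective (coeffSeq N) := by
  rw [injective_iff_map_eq_zero]
  intro f hf
  have hh : qExpansion 1 (⇑f) = 0 := by
    ext n
    simpa [coeffSeq, qCoeff] using congrFun hf n
  have hΓ := CongruenceSubgroup.one_mem_strictPeriods_Gamma0 N
  haveI : Fact (IsCusp OnePoint.infty
      (Subgroup.map (Matrix.SpecialLinearGroup.mapGL ℝ) (Gamma0 N))) :=
    ⟨Subgroup.isCusp_of_mem_strictPeriods one_pos hΓ⟩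
  refine DFunLike.coe_injective ?_
  exact (qExpansion_eq_zero_iff one_pos (SlashInvariantFormClass.periodic_comp_ofComplex f hΓ)
    (ModularFormClass.holo f) (ModularFormClass.bdd_at_infty f)).1 hh

variable [NeZero N]

omit [NeZero N] in
theorem coeff_heckeT {ℓ : ℕ} (hℓ : ℓ.Prime) (hℓN : ¬ ℓ ∣ N) (f : CuspForm (Gamma0 N) 2) (n : ℕ) :
    coeffSeq N (CuspForm.heckeTLin 2 hℓ hℓN f) n =
      coeffSeq N f (n * ℓ) + if ℓ ∣ n then (ℓ : ℂ) * coeffSeq N f (n / ℓ) else 0 := by
  change qCoeff (ModularForm.heckeT 2 ℓ ⇑f) n = _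
  rw [ModularFormClass.qCoeff_heckeT f (CongruenceSubgroup.one_mem_strictPeriods_Gamma0 N)
    hℓ.ne_zero, ModularForm.coeffHeckeT_apply]
  norm_num
  rfl

theorem coeff_heckeU {q : ℕ} (hq : q.Prime) (hqN : q ∣ N) (f : CuspForm (Gamma0 N) 2) (n : ℕ) :
    coeffSeq N (CuspForm.heckeULin 2 hqN f) n = coeffSeq N f (n * q) := by
  change qCoeff (ModularForm.heckeU 2 q ⇑f) n = _
  rw [ModularFormClass.qCoeff_heckeU f (CongruenceSubgroup.one_mem_strictPeriods_Gamma0 N)
    hq.ne_zero, ModularForm.coeffHeckeU_apply]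
  rfl

/-- Forms with integral `q`-expansion. -/
def intForms (N : ℕ) : Submodule ℤ (CuspForm (Gamma0 N) 2) where
  carrier := {f | ∀ n, ∃ m : ℤ, coeffSeq N f n = m}
  add_mem' := by
    intro f g hf hg n
    obtain ⟨a, ha⟩ := hf n
    obtain ⟨b, hb⟩ := hg n
    exact ⟨a + b, by rw [map_add, Pi.add_apply, ha, hb, Int.cast_add]⟩
  zero_mem' := fun n => ⟨0, by simp⟩
  smul_mem' := by
    intro c f hf n
    obtain ⟨a, ha⟩ := hf n
    exact ⟨c * a, by rw [map_zsmul, Pi.smul_apply, ha, zsmul_eq_mul, Int.cast_mul]⟩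

omit [NeZero N] in
theorem intLattice_eq_intForms : CuspForm.intLattice N 2 = intForms N :=
  le_antisymm (Submodule.span_le.2 fun _ hf => hf) (fun _ hf => Submodule.subset_span hf)

omit [NeZero N] in
theorem span_intForms (h : CuspForm.HasIntegralBasis N) :
    Submodule.span ℂ (intForms N : Set (CuspForm (Gamma0 N) 2)) = ⊤ := by
  refine eq_top_iff.2 (h ▸ Submodule.span_mono ?_)
  intro f hf n
  obtain ⟨m, hm⟩ := Subring.mem_bot.1 (hf n)
  exact ⟨m, hm.symm⟩

theorem intForms_fg : (intForms N).FG :=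
  intLattice_eq_intForms (N := N) ▸ CuspForm.intLattice_fg N 2

theorem hecke_mem_intForms {S : Set ℕ} (t : CuspForm.heckeAlgebra N 2 S)
    {f : CuspForm (Gamma0 N) 2} (hf : f ∈ intForms N) : t.1 f ∈ intForms N := by
  rw [← intLattice_eq_intForms] at hf ⊢
  exact CuspForm.mem_intLattice_of_mem_heckeAlgebra (by norm_num) t.2 hf

/-- Integral vectors which are independent over `ℤ` are independent over `ℂ`. -/
theorem eq_zero_of_int_independent {X ι : Type*} [Fintype ι] (m : ι → X → ℤ)
    (hm : ∀ r : ι → ℤ, (∀ x, ∑ i, r i * m i x = 0) → r = 0) (c : ι → ℂ)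
    (hc : ∀ x, ∑ i, c i * (m i x : ℂ) = 0) : c = 0 := by
  classical
  funext i
  by_contra hi
  obtain ⟨φ, hφ⟩ : ∃ φ : ℂ →ₗ[ℚ] ℚ, φ (c i) ≠ 0 := by
    by_contra hne
    push Not at hne
    exact hi ((Module.forall_dual_apply_eq_zero_iff ℚ (c i)).1 hne)
  have hq : ∀ x, ∑ j, φ (c j) * (m j x : ℚ) = 0 := by
    intro x
    have h := congrArg φ (hc x)
    rw [map_sum, map_zero] at h
    rw [← h]
    refine Finset.sum_congr rfl fun j _ => ?_
    rw [show c j * (m j x : ℂ) = (m j x : ℤ) • c j from by rw [zsmul_eq_mul, mul_comm],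
      map_zsmul, zsmul_eq_mul, mul_comm]
  obtain ⟨⟨d, hd⟩, hint⟩ := IsLocalization.exist_integer_multiples (nonZeroDivisors ℤ)
    (Finset.univ : Finset ι) (fun j => φ (c j))
  choose r hr using fun j => hint j (Finset.mem_univ j)
  have hd0 : (d : ℚ) ≠ 0 := Int.cast_ne_zero.2 (nonZeroDivisors.ne_zero hd)
  have hr' : ∀ j, (r j : ℚ) = (d : ℚ) * φ (c j) := fun j => by
    have := hr j
    simpa using this
  have h0 := hm r fun x => by
    have h1 : ((∑ j, r j * m j x : ℤ) : ℚ) = 0 := by
      push_cast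
      simp only [hr', mul_assoc]
      rw [← Finset.mul_sum, hq x, mul_zero]
    exact_mod_cast h1
  have h2 := hr' i
  rw [h0] at h2
  simp [hd0, hφ] at h2

variable {S : Set ℕ}

omit [NeZero N] in
theorem hecke_apply_eq_zero (h : CuspForm.HasIntegralBasis N)
    {t : Module.End ℂ (CuspForm (Gamma0 N) 2)} (ht : ∀ g ∈ intForms N, t g = 0) : t = 0 :=
  LinearMap.ext_on (span_intForms h) fun g hg => by simpa using ht g hg

theorem heckeAlgebra_finite (h : CuspForm.HasIntegralBasis N) :
    Module.Finite ℤ (CuspForm.heckeAlgebra N 2 S) := by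
  haveI : Module.Finite ℤ (intForms N) := Module.Finite.iff_fg.2 intForms_fg
  obtain ⟨k, g, hg⟩ := Module.Finite.exists_fin (R := ℤ) (M := intForms N)
  let ev : CuspForm.heckeAlgebra N 2 S →ₗ[ℤ] (Fin k → intForms N) :=
    { toFun := fun t i => ⟨t.1 (g i).1, hecke_mem_intForms t (g i).2⟩
      map_add' := fun t t' => rfl
      map_smul' := fun c t => rfl }
  refine Module.Finite.of_injective ev ?_
  rw [injective_iff_map_eq_zero]
  intro t ht
  apply Subtype.ext
  apply hecke_apply_eq_zero h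
  intro x hx
  have hmem : (⟨x, hx⟩ : intForms N) ∈ Submodule.span ℤ (Set.range g) := by rw [hg]; trivial
  obtain ⟨c, hc⟩ := (Submodule.mem_span_range_iff_exists_fun ℤ).1 hmem
  have hx' : x = ∑ i, c i • (g i).1 := by
    have := congrArg Subtype.val hc
    simpa using this.symm
  have hzero : ∀ i, t.1 (g i).1 = 0 := fun i => congrArg Subtype.val (congrFun ht i)
  simp [hx', hzero]

/-- Characters of a faithful commutative algebra of operators occur. -/
theorem exists_eigenvector_of_injective {A V : Type*} [CommRing A] [Algebra ℂ A]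
    [AddCommGroup V] [Module ℂ V] [Module.Finite ℂ A] [Module.Finite ℂ V]
    (Φ : A →ₐ[ℂ] Module.End ℂ V) (hinj : Function.Injective Φ) (χA : A →ₐ[ℂ] ℂ) :
    ∃ v : V, v ≠ 0 ∧ ∀ a : A, Φ a v = χA a • v := by
  letI : Module A V := Module.compHom V Φ.toRingHom
  haveI : IsScalarTower ℂ A V := ⟨fun c a v => by
    change Φ (c • a) v = c • Φ a v
    rw [map_smul]; rfl⟩
  haveI : Module.Finite A V := Module.Finite.of_restrictScalars_finite ℂ A V
  haveI : IsArtinianRing A := IsArtinianRing.of_finite ℂ A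
  haveI : IsNoetherianRing A := inferInstance
  have hann : Module.annihilator A V = ⊥ := by
    refine eq_bot_iff.2 fun a ha => ?_
    apply hinj
    rw [map_zero]
    exact LinearMap.ext fun v => Module.mem_annihilator.1 ha v
  haveI hM : (RingHom.ker χA.toRingHom).IsMaximal :=
    RingHom.ker_isMaximal_of_surjective _ fun c => ⟨algebraMap ℂ A c, χA.commutes c⟩
  have hmin : RingHom.ker χA.toRingHom ∈ (Module.annihilator A V).minimalPrimes := by
    rw [hann]
    refine ⟨⟨hM.isPrime, bot_le⟩, fun q hq hle => ?_⟩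
    haveI := hq.1
    haveI : q.IsMaximal := IsArtinianRing.isMaximal_of_isPrime q
    exact (Ideal.IsMaximal.eq_of_le ‹q.IsMaximal› hM.ne_top hle).ge
  obtain ⟨hp, v, hv⟩ := isAssociatedPrime_iff.1
    (Module.associatedPrimes.minimalPrimes_annihilator_subset_associatedPrimes A V hmin)
  refine ⟨v, ?_, fun a => ?_⟩
  · rintro rfl
    apply hp.ne_top
    rw [hv]
    ext a
    simp [Submodule.mem_colon_singleton]
  · have hmem : a - algebraMap ℂ A (χA a) ∈ RingHom.ker χA.toRingHom := by
      simp [RingHom.mem_ker]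
    rw [hv, Submodule.mem_colon_singleton, Submodule.mem_bot] at hmem
    have h2 : Φ (a - algebraMap ℂ A (χA a)) v = 0 := hmem
    rw [map_sub, LinearMap.sub_apply, sub_eq_zero, AlgHom.commutes,
      Module.algebraMap_end_apply] at h2
    exact h2

set_option maxHeartbeats 1000000 in
/-- Every character of the Hecke algebra occurs in the space of cusp forms. -/
theorem exists_eigenvector (h : CuspForm.HasIntegralBasis N)
    (χ : CuspForm.heckeAlgebra N 2 S →+* ℂ) :
    ∃ v : CuspForm (Gamma0 N) 2, v ≠ 0 ∧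
      ∀ t : CuspForm.heckeAlgebra N 2 S, t.1 v = χ t • v := by
  classical
  haveI hfin := heckeAlgebra_finite (S := S) h
  haveI : Module.IsTorsionFree ℤ (CuspForm.heckeAlgebra N 2 S) := inferInstance
  haveI : Module.Free ℤ (CuspForm.heckeAlgebra N 2 S) := Module.free_of_finite_type_torsion_free'
  let β := Module.Free.chooseBasis ℤ (CuspForm.heckeAlgebra N 2 S)
  let Φ : ℂ ⊗[ℤ] (CuspForm.heckeAlgebra N 2 S) →ₐ[ℂ] Module.End ℂ (CuspForm (Gamma0 N) 2) :=
    Algebra.TensorProduct.lift (Algebra.ofId ℂ (Module.End ℂ (CuspForm (Gamma0 N) 2)))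
      (CuspForm.heckeAlgebra N 2 S).val (fun c t => Algebra.commutes c _)
  have hΦ : ∀ (c : ℂ) (t : CuspForm.heckeAlgebra N 2 S) (v : CuspForm (Gamma0 N) 2),
      Φ (c ⊗ₜ t) v = c • t.1 v := by
    intro c t v
    rfl
  haveI : Module.Finite ℂ (CuspForm (Gamma0 N) 2) := by
    refine ⟨?_⟩
    obtain ⟨s, hs⟩ := intForms_fg (N := N)
    refine ⟨s, ?_⟩
    rw [eq_top_iff, ← span_intForms h, Submodule.span_le, ← hs]
    intro x hx
    exact Submodule.span_le_restrictScalars ℤ ℂ (s : Set (CuspForm (Gamma0 N) 2)) hx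
  have hinj : Function.Injective Φ := by
    rw [injective_iff_map_eq_zero]
    intro a ha
    let γ := β.baseChange ℂ
    choose m hm using fun (i : Module.Free.ChooseBasisIndex ℤ (CuspForm.heckeAlgebra N 2 S))
      (x : intForms N × ℕ) => hecke_mem_intForms (β i) x.1.2 x.2
    have hc : (fun i => γ.repr a i) = 0 := by
      apply eq_zero_of_int_independent m
      · intro r hr
        have ht0 : (∑ i, r i • β i : CuspForm.heckeAlgebra N 2 S) = 0 := by
          apply Subtype.ext
          apply hecke_apply_eq_zero h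
          intro g hg
          apply coeffSeq_injective
          funext n
          have h2 : ((∑ i, r i * m i (⟨g, hg⟩, n) : ℤ) : ℂ) = 0 := by
            rw [hr (⟨g, hg⟩, n), Int.cast_zero]
          push_cast at h2
          simp only [← hm] at h2
          rw [map_zero, Pi.zero_apply]
          refine Eq.trans ?_ h2
          simp [map_sum, map_zsmul, Finset.sum_apply, zsmul_eq_mul]
        exact funext (Fintype.linearIndependent_iff.1 β.linearIndependent r ht0)
      · rintro ⟨g, n⟩
        have h1 : ∑ i, γ.repr a i • (Φ (γ i) g.1) = 0 := by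
          have h2 : Φ (∑ i, γ.repr a i • γ i) g.1 = 0 := by
            rw [γ.sum_repr, ha]; rfl
          rw [map_sum, LinearMap.sum_apply] at h2
          refine Eq.trans (Finset.sum_congr rfl fun i _ => ?_) h2
          rw [map_smul, LinearMap.smul_apply]
        have h3 := congrFun (congrArg (coeffSeq N) h1) n
        rw [map_zero, Pi.zero_apply, map_sum, Finset.sum_apply] at h3
        refine Eq.trans (Finset.sum_congr rfl fun i _ => ?_) h3
        rw [map_smul, Pi.smul_apply, smul_eq_mul, Module.Basis.baseChange_apply, hΦ, one_smul]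
        exact congrArg _ (hm i (g, n)).symm
    rw [← γ.sum_repr a]
    simp only [fun i => congrFun hc i, Pi.zero_apply, zero_smul, Finset.sum_const_zero]
  let χA : ℂ ⊗[ℤ] (CuspForm.heckeAlgebra N 2 S) →ₐ[ℂ] ℂ :=
    Algebra.TensorProduct.lift (AlgHom.id ℂ ℂ) χ.toIntAlgHom (fun _ _ => mul_comm _ _)
  obtain ⟨v, hv0, hv⟩ := exists_eigenvector_of_injective Φ hinj χA
  refine ⟨v, hv0, fun t => ?_⟩
  have h2 := hv (1 ⊗ₜ t)
  rw [hΦ, one_smul] at h2
  rw [h2]
  congr 1
  exact one_mul _

end FLTAgent.Alg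

end
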