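import Mathlib

set_option autoImplicit false
set_option linter.style.haveILetI false
set_option linter.unusedSectionVars false

namespace FLTAgent.Alg

open IsLocalRing RingTheory.Sequence

variable {P : Type} [CommRing P] [IsLocalRing P]

/-- `M` admits a weakly regular sequence of length `n` in the maximal ideal. -/
def HasReg (P : Type) [CommRing P] [IsLocalRing P] (M : Type) [AddCommGroup M] [Module P M]
    (n : ℕ) : Prop :=
  ∃ rs : List P, rs.length = n ∧ (∀ r ∈ rs, r ∈ maximalIdeal P) ∧ IsWeaklyRegular M rs

variable [IsNoetherianRing P]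

lemma not_mem_ass_of_regular {M : Type} [AddCommGroup M] [Module P M] {x : P}
    (hx : IsSMulRegular M x) {q : Ideal P} (hq : q ∈ associatedPrimes P M) : x ∉ q := by
  intro hxq
  have h := (biUnion_associatedPrimes_eq_compl_regular P M).le
    (Set.mem_biUnion hq (show x ∈ (q : Set P) from hxq))
  exact h hx

lemma exists_socle_of_not_regular (M : Type) [AddCommGroup M] [Module P M]
    (h : maximalIdeal P ∈ associatedPrimes P M) :
    ∃ z : M, z ≠ 0 ∧ ∀ f ∈ maximalIdeal P, f • z = 0 := by
  obtain ⟨hp, z, hz⟩ := isAssociatedPrime_iff.1 h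
  refine ⟨z, ?_, ?_⟩
  · rintro rfl
    apply hp.ne_top
    rw [hz]
    ext a
    simp [Submodule.mem_colon_singleton]
  · intro f hf
    rw [hz, Submodule.mem_colon_singleton] at hf
    simpa using hf

lemma exists_regular_three (A B C : Type) [AddCommGroup A] [Module P A] [AddCommGroup B]
    [Module P B] [AddCommGroup C] [Module P C] [Module.Finite P A] [Module.Finite P B]
    [Module.Finite P C]
    (hA : maximalIdeal P ∉ associatedPrimes P A) (hB : maximalIdeal P ∉ associatedPrimes P B)
    (hC : maximalIdeal P ∉ associatedPrimes P C) :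
    ∃ z ∈ maximalIdeal P, IsSMulRegular A z ∧ IsSMulRegular B z ∧ IsSMulRegular C z := by
  classical
  set s : Set (Ideal P) := associatedPrimes P A ∪ associatedPrimes P B ∪ associatedPrimes P C
  have hfin : s.Finite :=
    ((associatedPrimes.finite P A).union (associatedPrimes.finite P B)).union
      (associatedPrimes.finite P C)
  have hpr : ∀ i ∈ hfin.toFinset, i.IsPrime := by
    intro i hi
    rcases hfin.mem_toFinset.1 hi with (h | h) | h <;> exact IsAssociatedPrime.isPrime h
  by_contra hne
  have hsub : (maximalIdeal P : Set P) ⊆ ⋃ i ∈ (↑hfin.toFinset : Set (Ideal P)), (i : Set P) := by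
    intro z hz
    by_contra hz'
    simp only [Set.Finite.coe_toFinset, Set.mem_iUnion, exists_prop, not_exists, not_and] at hz'
    apply hne
    refine ⟨z, hz, ?_, ?_, ?_⟩
    · by_contra hr
      have h := (biUnion_associatedPrimes_eq_compl_regular P A).ge hr
      simp only [Set.mem_iUnion, exists_prop] at h
      obtain ⟨i, hi, hzi⟩ := h
      exact hz' i (Or.inl (Or.inl hi)) hzi
    · by_contra hr
      have h := (biUnion_associatedPrimes_eq_compl_regular P B).ge hr
      simp only [Set.mem_iUnion, exists_prop] at h
      obtain ⟨i, hi, hzi⟩ := h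
      exact hz' i (Or.inl (Or.inr hi)) hzi
    · by_contra hr
      have h := (biUnion_associatedPrimes_eq_compl_regular P C).ge hr
      simp only [Set.mem_iUnion, exists_prop] at h
      obtain ⟨i, hi, hzi⟩ := h
      exact hz' i (Or.inr hi) hzi
  obtain ⟨i, hi, hle⟩ :=
    (Ideal.subset_union_prime ⊥ ⊥ (fun i hi _ _ => hpr i hi)).1 hsub
  have : i = maximalIdeal P :=
    le_antisymm (le_maximalIdeal (hpr i hi).ne_top) hle
  subst this
  rcases hfin.mem_toFinset.1 hi with (h | h) | h
  · exact hA h
  · exact hB h
  · exact hC h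

/-- The socle of `M/yM` injects into that of `M/xM` for two regular elements. -/
lemma socle_transfer {M : Type} [AddCommGroup M] [Module P M] {x y : P}
    (hxm : x ∈ maximalIdeal P) (hy : IsSMulRegular M y) (hx : IsSMulRegular M x)
    (h : maximalIdeal P ∈ associatedPrimes P (QuotSMulTop y M)) :
    ∃ z : QuotSMulTop x M, z ≠ 0 ∧ ∀ f ∈ maximalIdeal P, f • z = 0 := by
  obtain ⟨z, hz0, hzm⟩ := exists_socle_of_not_regular _ h
  obtain ⟨a, rfl⟩ := Submodule.Quotient.mk_surjective _ z
  have hmem : ∀ f ∈ maximalIdeal P, ∃ c : M, y • c = f • a := by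
    intro f hf
    have := hzm f hf
    rw [← Submodule.Quotient.mk_smul, Submodule.Quotient.mk_eq_zero] at this
    obtain ⟨c, -, hc⟩ := (Submodule.mem_smul_pointwise_iff_exists _ _ _).1 this
    exact ⟨c, hc⟩
  obtain ⟨b, hb⟩ := hmem x hxm
  refine ⟨Submodule.Quotient.mk b, ?_, ?_⟩
  · intro h0
    rw [Submodule.Quotient.mk_eq_zero] at h0
    obtain ⟨c, -, hc⟩ := (Submodule.mem_smul_pointwise_iff_exists _ _ _).1 h0
    apply hz0
    rw [Submodule.Quotient.mk_eq_zero]
    have : a = y • c := by
      apply hx
      change x • a = x • (y • c)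
      rw [smul_comm x y c, hc, hb]
    rw [this]
    exact Submodule.smul_mem_pointwise_smul _ _ _ trivial
  · intro f hf
    obtain ⟨c, hc⟩ := hmem f hf
    rw [← Submodule.Quotient.mk_smul, Submodule.Quotient.mk_eq_zero]
    have : f • b = x • c := by
      apply hy
      change y • (f • b) = y • (x • c)
      rw [smul_comm y f b, hb, smul_comm f x a, ← hc, smul_comm y x c]
    rw [this]
    exact Submodule.smul_mem_pointwise_smul _ _ _ trivial

lemma perm_head {M : Type} [AddCommGroup M] [Module P M] [Module.Finite P M] {a b : P}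
    {l : List P} (h : IsWeaklyRegular M (a :: b :: l))
    (hm : ∀ r ∈ a :: b :: l, r ∈ maximalIdeal P) : IsWeaklyRegular M (b :: a :: l) :=
  IsLocalRing.isWeaklyRegular_of_perm_of_subset_maximalIdeal h (List.Perm.swap _ _ _) hm

lemma hasReg_quotient : ∀ (n : ℕ) (M : Type) [AddCommGroup M] [Module P M] [Module.Finite P M],
    HasReg P M (n + 1) → ∀ y ∈ maximalIdeal P, IsSMulRegular M y →
      HasReg P (QuotSMulTop y M) n := by
  intro n
  induction n with
  | zero =>
    intro M _ _ _ _ y _ _
    exact ⟨[], rfl, by simp, IsWeaklyRegular.nil _ _⟩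
  | succ n ih =>
    intro M _ _ _ hM y hym hy
    obtain ⟨rs, hlen, hrm, hrs⟩ := hM
    match rs, hlen with
    | x :: x2 :: rs', hlen =>
      simp only [List.length_cons, Nat.add_right_cancel_iff] at hlen
      simp only [List.mem_cons, forall_eq_or_imp] at hrm
      obtain ⟨hxm, hx2m, hrm'⟩ := hrm
      have hrs0 := hrs
      rw [isWeaklyRegular_cons_iff] at hrs
      obtain ⟨hx, hrest⟩ := hrs
      have hrest0 := hrest
      rw [isWeaklyRegular_cons_iff] at hrest
      obtain ⟨hx2, -⟩ := hrest
      have hA : maximalIdeal P ∉ associatedPrimes P M := fun h => not_mem_ass_of_regular hx h hxm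
      have hB : maximalIdeal P ∉ associatedPrimes P (QuotSMulTop x M) :=
        fun h => not_mem_ass_of_regular hx2 h hx2m
      have hC : maximalIdeal P ∉ associatedPrimes P (QuotSMulTop y M) := by
        intro h
        obtain ⟨z, hz0, hzm⟩ := socle_transfer hxm hy hx h
        apply hz0
        apply hx2
        change x2 • z = x2 • (0 : QuotSMulTop x M)
        rw [hzm x2 hx2m, smul_zero]
      obtain ⟨z, hzm, hzA, hzB, hzC⟩ := exists_regular_three _ _ _ hA hB hC
      have hBreg : HasReg P (QuotSMulTop x M) (n + 1) :=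
        ⟨x2 :: rs', by simp [hlen], List.forall_mem_cons.2 ⟨hx2m, hrm'⟩, hrest0⟩
      obtain ⟨l, hl, hlm, hlr⟩ := ih _ hBreg z hzm hzB
      have h1 : IsWeaklyRegular M (x :: z :: l) :=
        IsWeaklyRegular.cons hx (IsWeaklyRegular.cons hzB hlr)
      have h2 := perm_head h1 (List.forall_mem_cons.2 ⟨hxm, List.forall_mem_cons.2 ⟨hzm, hlm⟩⟩)
      rw [isWeaklyRegular_cons_iff] at h2
      have hzreg : HasReg P (QuotSMulTop z M) (n + 1) :=
        ⟨x :: l, by simp [hl], List.forall_mem_cons.2 ⟨hxm, hlm⟩, h2.2⟩
      have h3 : IsWeaklyRegular M [y, z] :=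
        IsWeaklyRegular.cons hy (IsWeaklyRegular.cons hzC (IsWeaklyRegular.nil _ _))
      have h4 := perm_head h3 (List.forall_mem_cons.2 ⟨hym, List.forall_mem_cons.2 ⟨hzm, fun r hr => absurd hr List.not_mem_nil⟩⟩)
      rw [isWeaklyRegular_cons_iff, isWeaklyRegular_cons_iff] at h4
      obtain ⟨l', hl', hlm', hlr'⟩ := ih _ hzreg y hym h4.2.1
      have h5 : IsWeaklyRegular M (z :: y :: l') :=
        IsWeaklyRegular.cons hzA (IsWeaklyRegular.cons h4.2.1 hlr')
      have h6 := perm_head h5 (List.forall_mem_cons.2 ⟨hzm, List.forall_mem_cons.2 ⟨hym, hlm'⟩⟩)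
      rw [isWeaklyRegular_cons_iff] at h6
      exact ⟨z :: l', by simp [hl'], List.forall_mem_cons.2 ⟨hzm, hlm'⟩, h6.2⟩

/-- A form of Ischebeck's inequality. -/
lemma height_add_le : ∀ (n : ℕ) (M : Type) [AddCommGroup M] [Module P M] [Module.Finite P M],
    HasReg P M n → ∀ q ∈ associatedPrimes P M,
      q.height + (n : ℕ∞) ≤ (maximalIdeal P).height := by
  intro n
  induction n with
  | zero =>
    intro M _ _ _ _ q hq
    simpa using Ideal.height_mono (le_maximalIdeal (IsAssociatedPrime.isPrime hq).ne_top)
  | succ n ih =>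
    intro M _ _ _ hM q hq
    obtain ⟨rs, hlen, hrm, hrs⟩ := hM
    match rs, hlen with
    | x :: rs', hlen =>
      simp only [List.length_cons, Nat.add_right_cancel_iff] at hlen
      simp only [List.mem_cons, forall_eq_or_imp] at hrm
      obtain ⟨hxm, hrm'⟩ := hrm
      rw [isWeaklyRegular_cons_iff] at hrs
      obtain ⟨hx, hrest⟩ := hrs
      have hxq := not_mem_ass_of_regular hx hq
      obtain ⟨hp, z, hz⟩ := isAssociatedPrime_iff.1 hq
      have hz0 : z ≠ 0 := by
        rintro rfl
        apply hp.ne_top
        rw [hz]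
        ext a
        simp [Submodule.mem_colon_singleton]
      have hkill : ∀ f ∈ q, f • z = 0 := by
        intro f hf
        rw [hz, Submodule.mem_colon_singleton] at hf
        simpa using hf
      classical
      have hxne : Ideal.span {x} ≠ (⊤ : Ideal P) := by
        rw [Ne, Ideal.span_singleton_eq_top]
        exact hxm
      have hex : ∃ k : ℕ, ¬ ∃ c : M, x ^ k • c = z := by
        by_contra h
        push Not at h
        apply hz0
        have : z ∈ (⨅ i : ℕ, Ideal.span {x} ^ i • ⊤ : Submodule P M) := by
          refine Submodule.mem_iInf _ |>.2 fun i => ?_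
          obtain ⟨c, hc⟩ := h i
          rw [← hc, Ideal.span_singleton_pow]
          exact Submodule.smul_mem_smul (Ideal.mem_span_singleton_self _) trivial
        rw [Ideal.iInf_pow_smul_eq_bot_of_isLocalRing _ hxne] at this
        simpa using this
      have hk0 : Nat.find hex ≠ 0 := by
        intro h0
        exact Nat.find_spec hex ⟨z, by rw [h0]; simp⟩
      obtain ⟨k, hk⟩ := Nat.exists_eq_succ_of_ne_zero hk0
      obtain ⟨z', hz'⟩ : ∃ c : M, x ^ k • c = z := by
        by_contra h
        have := Nat.find_min' hex h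
        omega
      have hz'x : (Submodule.Quotient.mk z' : QuotSMulTop x M) ≠ 0 := by
        intro h0
        rw [Submodule.Quotient.mk_eq_zero] at h0
        obtain ⟨c, -, hc⟩ := (Submodule.mem_smul_pointwise_iff_exists _ _ _).1 h0
        apply Nat.find_spec hex
        refine ⟨c, ?_⟩
        rw [hk, pow_succ, mul_smul, hc, hz']
      obtain ⟨q', hq', hle⟩ := exists_le_isAssociatedPrime_of_isNoetherianRing P _ hz'x
      have hqq' : q ≤ q' := by
        intro f hf
        apply hle
        rw [Submodule.mem_colon_singleton, Submodule.mem_bot, ← Submodule.Quotient.mk_smul]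
        have : f • z' = 0 := by
          apply hx.pow k
          change x ^ k • (f • z') = x ^ k • (0 : M)
          rw [smul_zero, smul_comm, hz', hkill f hf]
        rw [this, Submodule.Quotient.mk_zero]
      have hxq' : x ∈ q' := by
        apply hle
        rw [Submodule.mem_colon_singleton, Submodule.mem_bot, ← Submodule.Quotient.mk_smul,
          Submodule.Quotient.mk_eq_zero]
        exact Submodule.smul_mem_pointwise_smul _ _ _ trivial
      have hlt : q < q' := lt_of_le_of_ne hqq' fun h => hxq (h ▸ hxq')
      haveI : q.IsPrime := hp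
      haveI : q'.IsPrime := IsAssociatedPrime.isPrime hq'
      have h1 : q.height + 1 ≤ q'.height := Ideal.height_add_one_le_of_lt_of_isPrime hlt
      have h2 := ih _ ⟨rs', hlen, hrm', hrest⟩ q' hq'
      calc q.height + ((n + 1 : ℕ) : ℕ∞) = q.height + 1 + n := by push_cast; ring
        _ ≤ q'.height + n := by gcongr
        _ ≤ _ := h2

theorem free_of_hasReg : ∀ (n : ℕ) (P : Type) [CommRing P] [IsLocalRing P] [IsNoetherianRing P]
    (rs : List P), rs.length = n → IsWeaklyRegular P rs → Ideal.ofList rs = maximalIdeal P →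
    ∀ (M : Type) [AddCommGroup M] [Module P M] [Module.Finite P M],
      HasReg P M n → Module.Free P M := by
  intro n
  induction n with
  | zero =>
    intro P _ _ _ rs hlen _ hgen M _ _ _ _
    rw [List.length_eq_zero_iff] at hlen
    subst hlen
    rw [Ideal.ofList_nil] at hgen
    have hF : IsField P := (IsLocalRing.isField_iff_maximalIdeal_eq).2 hgen.symm
    letI := hF.toField
    exact Module.Free.of_divisionRing P M
  | succ n ih =>
    intro P _ _ _ rs hlen hreg hgen M _ _ _ hM
    match rs, hlen with
    | x :: rs', hlen =>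
      simp only [List.length_cons, Nat.add_right_cancel_iff] at hlen
      rw [isWeaklyRegular_cons_iff] at hreg
      obtain ⟨hxP, hrest⟩ := hreg
      have hmem : ∀ r ∈ x :: rs', r ∈ maximalIdeal P := fun r hr =>
        hgen ▸ Ideal.subset_span hr
      have hxm : x ∈ maximalIdeal P := hmem x (List.mem_cons_self ..)
      have hht : (maximalIdeal P).height ≤ ((n + 1 : ℕ) : ℕ∞) := by
        classical
        refine le_trans (Ideal.height_le_spanFinrank _ (maximalIdeal.isMaximal P).ne_top) ?_
        norm_cast
        rw [← hgen]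
        have hfin : {r | r ∈ x :: rs'}.Finite := List.finite_toSet _
        refine (Submodule.spanFinrank_span_le_ncard_of_finite hfin).trans ?_
        rw [Set.ncard_eq_toFinset_card _ hfin]
        have hc := List.toFinset_card_le (x :: rs')
        rw [List.length_cons, hlen] at hc
        refine le_trans (le_of_eq ?_) hc
        congr 1
        ext; simp
      have hxM : IsSMulRegular M x := by
        by_contra hr
        have h := (biUnion_associatedPrimes_eq_compl_regular P M).ge hr
        simp only [Set.mem_iUnion, exists_prop] at h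
        obtain ⟨q, hq, hxq⟩ := h
        haveI : q.IsPrime := IsAssociatedPrime.isPrime hq
        have h1 := (height_add_le (n + 1) M hM q hq).trans hht
        have h0 : q.height = 0 := by
          have h1' : q.height + ((n + 1 : ℕ) : ℕ∞) ≤ 0 + ((n + 1 : ℕ) : ℕ∞) := by
            rw [zero_add]; exact h1
          exact nonpos_iff_eq_zero.1 ((ENat.add_le_add_iff_right (ENat.natCast_ne_top _)).1 h1')
        rw [Ideal.height_eq_zero_iff] at h0
        have hnzd : x ∈ nonZeroDivisors P := by
          rw [mem_nonZeroDivisors_iff_right]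
          intro a ha
          apply hxP
          change x • a = x • (0 : P)
          rw [smul_zero, smul_eq_mul, mul_comm]
          exact ha
        exact Set.disjoint_left.1 (Ideal.disjoint_nonZeroDivisors_of_mem_minimalPrimes h0) hxq hnzd
      set I := Ideal.span {x} with hI
      have hIne : I ≠ ⊤ := by
        rw [hI, Ne, Ideal.span_singleton_eq_top]
        exact hxm
      haveI : Nontrivial (P ⧸ I) := Ideal.Quotient.nontrivial_iff.2 hIne
      haveI : IsLocalRing (P ⧸ I) := IsLocalRing.of_surjective' _ Ideal.Quotient.mk_surjective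
      have hmap : (maximalIdeal P).map (Ideal.Quotient.mk I) = maximalIdeal (P ⧸ I) := by
        haveI := IsLocalHom.of_surjective (Ideal.Quotient.mk I) Ideal.Quotient.mk_surjective
        refine IsLocalRing.eq_maximalIdeal ?_
        rcases Ideal.map_eq_top_or_isMaximal_of_surjective (Ideal.Quotient.mk I) Ideal.Quotient.mk_surjective
          (maximalIdeal.isMaximal P) with h | h
        · exfalso
          have h' := congrArg (Ideal.comap (Ideal.Quotient.mk I)) h
          rw [Ideal.comap_map_of_surjective _ Ideal.Quotient.mk_surjective, Ideal.comap_top,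
            ← RingHom.ker_eq_comap_bot, Ideal.mk_ker, sup_eq_left.2 (le_maximalIdeal hIne)] at h'
          exact (maximalIdeal.isMaximal P).ne_top h'
        · exact h
      have hgen' : Ideal.ofList (rs'.map (Ideal.Quotient.mk I)) = maximalIdeal (P ⧸ I) := by
        rw [← Ideal.map_ofList, ← hmap, ← hgen, Ideal.ofList_cons, Ideal.map_sup]
        have : (Ideal.span {x}).map (Ideal.Quotient.mk I) = ⊥ := by
          rw [← hI, Ideal.map_quotient_self]
        rw [this, bot_sup_eq]
      let e : QuotSMulTop x P ≃ₗ[P] P ⧸ I :=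
        Submodule.quotEquivOfEq _ _ (by
          rw [← Submodule.ideal_span_singleton_smul, smul_eq_mul, Ideal.mul_top])
      have hreg' : IsWeaklyRegular (P ⧸ I) (rs'.map (algebraMap P (P ⧸ I))) := by
        rw [isWeaklyRegular_map_algebraMap_iff]
        exact (e.isWeaklyRegular_congr rs').1 hrest
      haveI : Module.Finite (P ⧸ I) (QuotSMulTop x M) :=
        Module.Finite.of_restrictScalars_finite P _ _
      obtain ⟨l, hl, hlm, hlr⟩ := hasReg_quotient n M hM x hxm hxM
      have hM' : HasReg (P ⧸ I) (QuotSMulTop x M) n := by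
        refine ⟨l.map (algebraMap P (P ⧸ I)), by simp [hl], ?_, ?_⟩
        · intro r hr
          obtain ⟨a, ha, rfl⟩ := List.mem_map.1 hr
          rw [← hmap]
          exact Ideal.mem_map_of_mem _ (hlm a ha)
        · rw [isWeaklyRegular_map_algebraMap_iff]
          exact hlr
      have hfree := ih (P ⧸ I) (rs'.map (algebraMap P (P ⧸ I))) (by simp [hlen]) hreg' hgen'
        (QuotSMulTop x M) hM'
      haveI : Module.FinitePresentation P M := Module.finitePresentation_of_finite P M
      exact (Module.free_quotSMulTop_iff_free P M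
        (IsLocalRing.maximalIdeal_le_jacobson _ hxm) hxM).1 hfree

end FLTAgent.Alg
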