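import Mathlib
import Fermat.Agent.Alg.MaximalCM

set_option autoImplicit false
set_option linter.style.haveILetI false
set_option linter.unusedSectionVars false

namespace FLTAgent.Alg

open IsLocalRing RingTheory.Sequence

variable {O : Type} [CommRing O]

/-- The list `X_0, …, X_{r-1}, C ϖ`. -/
noncomputable def varsList (O : Type) [CommRing O] (ϖ : O) :
    (r : ℕ) → List (MvPowerSeries (Fin r) O)
  | 0 => [MvPowerSeries.C ϖ]
  | r + 1 => MvPowerSeries.X 0 ::
      (varsList O ϖ r).map
        ((MvPowerSeries.finSuccEquiv O r).symm.toRingHom.comp PowerSeries.C)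

lemma length_varsList (ϖ : O) : ∀ r, (varsList O ϖ r).length = r + 1
  | 0 => rfl
  | r + 1 => by simp [varsList, length_varsList ϖ r]

/-- Setting the first variable to zero. -/
noncomputable def killFirst (O : Type) [CommRing O] (r : ℕ) :
    MvPowerSeries (Fin (r + 1)) O →+* MvPowerSeries (Fin r) O :=
  PowerSeries.constantCoeff.comp (MvPowerSeries.finSuccEquiv O r).toRingHom

/-- Inclusion as series not involving the first variable. -/
noncomputable def addFirst (O : Type) [CommRing O] (r : ℕ) :
    MvPowerSeries (Fin r) O →+* MvPowerSeries (Fin (r + 1)) O :=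
  (MvPowerSeries.finSuccEquiv O r).symm.toRingHom.comp PowerSeries.C

lemma killFirst_addFirst (r : ℕ) (f : MvPowerSeries (Fin r) O) :
    killFirst O r (addFirst O r f) = f := by
  simp [killFirst, addFirst]

lemma decomp_first (r : ℕ) (f : MvPowerSeries (Fin (r + 1)) O) :
    ∃ g, f = addFirst O r (killFirst O r f) + MvPowerSeries.X 0 * g := by
  have h := PowerSeries.eq_X_mul_shift_add_const (MvPowerSeries.finSuccEquiv O r f)
  refine ⟨(MvPowerSeries.finSuccEquiv O r).symm
    (PowerSeries.mk fun p => PowerSeries.coeff (p + 1) (MvPowerSeries.finSuccEquiv O r f)), ?_⟩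
  apply (MvPowerSeries.finSuccEquiv O r).injective
  rw [map_add, map_mul, MvPowerSeries.finSuccEquiv_X_zero, AlgEquiv.apply_symm_apply]
  simp only [addFirst, killFirst, RingHom.comp_apply,
    RingEquiv.toRingHom_eq_coe, RingHom.coe_coe]
  change _ = MvPowerSeries.finSuccEquiv O r ((MvPowerSeries.finSuccEquiv O r).symm _) + _
  rw [AlgEquiv.apply_symm_apply]
  exact h.trans (add_comm _ _)

lemma killFirst_X_zero (r : ℕ) : killFirst O r (MvPowerSeries.X 0) = 0 := by
  simp [killFirst, MvPowerSeries.finSuccEquiv_X_zero]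

lemma killFirst_surjective (r : ℕ) : Function.Surjective (killFirst O r) :=
  fun f => ⟨_, killFirst_addFirst r f⟩

lemma ker_killFirst (r : ℕ) :
    RingHom.ker (killFirst O r) = Ideal.span {MvPowerSeries.X 0} := by
  apply le_antisymm
  · intro f hf
    obtain ⟨g, hg⟩ := decomp_first r f
    rw [hg, RingHom.mem_ker.1 hf, map_zero, zero_add]
    exact Ideal.mem_span_singleton.2 (dvd_mul_right _ _)
  · rw [Ideal.span_le, Set.singleton_subset_iff]
    exact killFirst_X_zero r

lemma isWeaklyRegular_varsList [IsDomain O] {ϖ : O} (hϖ : ϖ ≠ 0) :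
    ∀ r, IsWeaklyRegular (MvPowerSeries (Fin r) O) (varsList O ϖ r)
  | 0 => by
    rw [varsList, isWeaklyRegular_singleton_iff]
    intro a b hab
    refine mul_left_cancel₀ ?_ hab
    intro h
    exact hϖ (by simpa using congrArg MvPowerSeries.constantCoeff h)
  | r + 1 => by
    rw [varsList, isWeaklyRegular_cons_iff]
    refine ⟨?_, ?_⟩
    · intro a b hab
      have hX : (MvPowerSeries.finSuccEquiv O r (MvPowerSeries.X 0)) ≠ 0 := by
        rw [MvPowerSeries.finSuccEquiv_X_zero]; exact PowerSeries.X_ne_zero
      apply (MvPowerSeries.finSuccEquiv O r).injective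
      refine mul_left_cancel₀ hX ?_
      rw [← map_mul, ← map_mul]
      exact congrArg _ hab
    · let e : QuotSMulTop (MvPowerSeries.X 0 : MvPowerSeries (Fin (r + 1)) O)
          (MvPowerSeries (Fin (r + 1)) O) ≃+ MvPowerSeries (Fin r) O :=
        (QuotientAddGroup.quotientAddEquivOfEq (by
          rw [← Submodule.ideal_span_singleton_smul, smul_eq_mul, Ideal.mul_top, ← ker_killFirst]
          ext f
          exact Iff.rfl)).trans
        (QuotientAddGroup.quotientKerEquivOfSurjective (killFirst O r).toAddMonoidHom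
          (killFirst_surjective r))
      refine (e.isWeaklyRegular_congr ?_).2 (isWeaklyRegular_varsList hϖ r)
      rw [List.forall₂_map_left_iff, List.forall₂_same]
      intro a _ q
      obtain ⟨f, rfl⟩ := Submodule.Quotient.mk_surjective _ q
      change killFirst O r (addFirst O r a * f) = a * killFirst O r f
      rw [map_mul, killFirst_addFirst]

lemma constantCoeff_killFirst (r : ℕ) (f : MvPowerSeries (Fin (r + 1)) O) :
    MvPowerSeries.constantCoeff (killFirst O r f) = MvPowerSeries.constantCoeff f := by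
  have h := MvPowerSeries.coeff_coeff_finSuccEquiv (R := O) (n := r) f (k := 0) (x := 0)
  rw [Finsupp.cons_zero_zero, PowerSeries.coeff_zero_eq_constantCoeff_apply,
    MvPowerSeries.coeff_zero_eq_constantCoeff_apply,
    MvPowerSeries.coeff_zero_eq_constantCoeff_apply] at h
  exact h

lemma mem_ofList_varsList {ϖ : O} :
    ∀ r (f : MvPowerSeries (Fin r) O), MvPowerSeries.constantCoeff f ∈ Ideal.span {ϖ} →
      f ∈ Ideal.ofList (varsList O ϖ r)
  | 0, f, hf => by
    obtain ⟨c, hc⟩ := Ideal.mem_span_singleton.1 hf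
    rw [varsList, Ideal.ofList_singleton, Ideal.mem_span_singleton]
    refine ⟨MvPowerSeries.C c, ?_⟩
    ext n
    rw [Subsingleton.elim n 0]
    simp [hc]
  | r + 1, f, hf => by
    obtain ⟨g, hg⟩ := decomp_first r f
    rw [hg, varsList, Ideal.ofList_cons, ← Ideal.map_ofList]
    refine add_mem (Ideal.mem_sup_right (Ideal.mem_map_of_mem _ ?_))
      (Ideal.mem_sup_left (Ideal.mem_span_singleton.2 (dvd_mul_right _ _)))
    refine mem_ofList_varsList r _ ?_
    rwa [constantCoeff_killFirst]

lemma constantCoeff_varsList {ϖ : O} :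
    ∀ r, ∀ f ∈ varsList O ϖ r, MvPowerSeries.constantCoeff f ∈ Ideal.span {ϖ}
  | 0, f, hf => by
    simp only [varsList, List.mem_singleton] at hf
    subst hf
    simp [Ideal.mem_span_singleton_self]
  | r + 1, f, hf => by
    simp only [varsList, List.mem_cons, List.mem_map] at hf
    rcases hf with rfl | ⟨g, hg, rfl⟩
    · simp
    · have h := constantCoeff_killFirst r (addFirst O r g)
      rw [killFirst_addFirst] at h
      change MvPowerSeries.constantCoeff (addFirst O r g) ∈ _
      rw [← h]
      exact constantCoeff_varsList r g hg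

lemma ofList_varsList [IsDomain O] [IsDiscreteValuationRing O] {ϖ : O} (hϖ : Irreducible ϖ)
    (r : ℕ) : Ideal.ofList (varsList O ϖ r) = maximalIdeal (MvPowerSeries (Fin r) O) := by
  have hm := (IsDiscreteValuationRing.irreducible_iff_uniformizer ϖ).1 hϖ
  apply le_antisymm
  · refine Ideal.span_le.2 fun f hf => ?_
    simp only [SetLike.mem_coe, IsLocalRing.mem_maximalIdeal, mem_nonunits_iff,
      MvPowerSeries.isUnit_iff_constantCoeff]
    have := constantCoeff_varsList (ϖ := ϖ) r f hf
    rw [← hm] at this
    exact this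
  · intro f hf
    apply mem_ofList_varsList
    rw [← hm]
    simpa [MvPowerSeries.isUnit_iff_constantCoeff] using hf

/-- Freeness over `O⟦X₁,…,X_r⟧` of a module which is free over a power series subring. -/
theorem free_of_free_via_hom [IsDomain O] [IsDiscreteValuationRing O] {r : ℕ} {N : Type}
    [AddCommGroup N] [Module (MvPowerSeries (Fin r) O) N]
    (φ : MvPowerSeries (Fin r) O →ₐ[O] MvPowerSeries (Fin r) O)
    (hloc : ∀ i, φ (MvPowerSeries.X i) ∈ maximalIdeal (MvPowerSeries (Fin r) O))
    {d : ℕ} (b : Fin d → N)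
    (hspan : ∀ x : N, ∃ c : Fin d → MvPowerSeries (Fin r) O, x = ∑ i, φ (c i) • b i)
    (hind : ∀ c : Fin d → MvPowerSeries (Fin r) O, ∑ i, φ (c i) • b i = 0 → ∀ i, c i = 0) :
    Module.Free (MvPowerSeries (Fin r) O) N := by
  obtain ⟨ϖ, hϖ⟩ := IsDiscreteValuationRing.exists_irreducible O
  set P := MvPowerSeries (Fin r) O
  haveI : Module.Finite P N := by
    refine Module.Finite.of_surjective (Fintype.linearCombination P b) ?_
    intro x
    obtain ⟨c, hc⟩ := hspan x
    exact ⟨fun i => φ (c i), by simp [Fintype.linearCombination_apply, hc]⟩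
  let e : (Fin d → P) →+ N :=
    { toFun := fun c => ∑ i, φ (c i) • b i
      map_zero' := by simp
      map_add' := fun c c' => by simp [add_smul, Finset.sum_add_distrib] }
  have he : Function.Bijective e :=
    ⟨(injective_iff_map_eq_zero e).2 fun c hc => funext (hind c hc),
      fun x => (hspan x).imp fun c hc => hc.symm⟩
  have hP : IsWeaklyRegular (Fin d → P) (varsList O ϖ r) := by
    have h := (isWeaklyRegular_varsList hϖ.ne_zero r).isWeaklyRegular_lTensor
      (M₂ := Fin d → P)
    exact ((TensorProduct.rid P (Fin d → P)).isWeaklyRegular_congr _).1 h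
  have hN : IsWeaklyRegular N ((varsList O ϖ r).map φ) := by
    refine ((AddEquiv.ofBijective e he).isWeaklyRegular_congr ?_).1 hP
    rw [List.forall₂_map_right_iff, List.forall₂_same]
    intro a _ c
    change ∑ i, φ (a * c i) • b i = φ a • ∑ i, φ (c i) • b i
    simp [Finset.smul_sum, mul_smul]
  refine free_of_hasReg (r + 1) P (varsList O ϖ r) (length_varsList ϖ r)
    (isWeaklyRegular_varsList hϖ.ne_zero r) (ofList_varsList hϖ r) N
    ⟨(varsList O ϖ r).map φ, by simp [length_varsList], ?_, hN⟩
  intro f hf
  obtain ⟨a, ha, rfl⟩ := List.mem_map.1 hf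
  have hle : Ideal.span (insert (MvPowerSeries.C ϖ) (Set.range MvPowerSeries.X)) ≤
      (maximalIdeal P).comap φ.toRingHom := by
    rw [Ideal.span_le, Set.insert_subset_iff]
    refine ⟨?_, ?_⟩
    · change φ (algebraMap O P ϖ) ∈ maximalIdeal P
      rw [AlgHom.commutes]
      change MvPowerSeries.C ϖ ∈ maximalIdeal (MvPowerSeries (Fin r) O)
      rw [IsLocalRing.mem_maximalIdeal, mem_nonunits_iff, MvPowerSeries.isUnit_iff_constantCoeff,
        MvPowerSeries.constantCoeff_C]
      exact hϖ.not_isUnit
    · rintro _ ⟨i, rfl⟩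
      exact hloc i
  have key : ∀ r (a : MvPowerSeries (Fin r) O), a ∈ varsList O ϖ r →
      a = MvPowerSeries.C ϖ ∨ ∃ i, a = MvPowerSeries.X i := by
    intro r
    induction r with
    | zero => intro a ha; simp [varsList] at ha; exact Or.inl ha
    | succ r ih =>
      intro a ha
      simp only [varsList, List.mem_cons, List.mem_map] at ha
      rcases ha with rfl | ⟨g, hg, rfl⟩
      · exact Or.inr ⟨0, rfl⟩
      · rcases ih g hg with rfl | ⟨i, rfl⟩
        · left
          apply (MvPowerSeries.finSuccEquiv O r).injective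
          simp [MvPowerSeries.finSuccEquiv_C]
        · refine Or.inr ⟨i.succ, ?_⟩
          apply (MvPowerSeries.finSuccEquiv O r).injective
          simp [MvPowerSeries.finSuccEquiv_X_succ]
  refine hle (Ideal.subset_span ?_)
  rcases key r a ha with rfl | ⟨i, rfl⟩
  · exact Set.mem_insert _ _
  · exact Set.mem_insert_of_mem _ ⟨i, rfl⟩

end FLTAgent.Alg
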